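import Mathlib
import Fermat.Agent.RootIrred.Setup
import Fermat.Agent.EC.Reducible.FreyCofixed
import Fermat.Agent.EC.Reducible.ExistsLine

/-!
# Irreducibility at an odd prime from one trace

A semistable curve whose `p`-torsion is reducible has `a_ℓ ≡ ℓ + 1 (mod p)` at all good `ℓ ≠ p`.

Main result: `modRepIsIrreducible_of_trace`.
-/

set_option autoImplicit false

noncomputable section

open WeierstrassCurve WeierstrassCurve.Affine WeierstrassCurve.Affine.Point Matrix
open scoped WeierstrassCurve.Affine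

namespace Fermat.Agent.SwitchGen

local notation "Qbar" => AlgebraicClosure ℚ

/-- `a_ℓ ≢ ℓ + 1` at one good prime forces irreducibility. -/
theorem modRepIsIrreducible_of_trace (W : WeierstrassCurve ℤ) (hΔ : W.Δ ≠ 0)
    (hss : W.IsSemistableModel) {p : ℕ} (hp : p.Prime) (hp2 : p ≠ 2) {ℓ : ℕ} (hℓ : ℓ.Prime)
    (hg : W.IsGoodPrimeFor ℓ) (hℓp : ℓ ≠ p)
    (h : ¬ (p : ℤ) ∣ W.apOfModel ℓ - ((ℓ : ℤ) + 1)) : W.ModRepIsIrreducible p := by
  have := Fact.mk hp
  by_contra hred
  obtain ⟨N, hst, hN0, hN1⟩ := EC.Reducible.exists_stable_line W hΔ hp hred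
  obtain ⟨A, hA⟩ := Gal.exists_liesOverPrime (L := Qbar) hℓ
  obtain ⟨σ, hσ⟩ := Gal.exists_isFrobeniusAt hℓ hA
  have := RootIrred.finite_tors (p := p) hΔ
  have hdet : (RootIrred.mat (p := p) hΔ σ - 1).det = 0 := by
    by_contra hne
    have hinj := Matrix.mulVec_injective_iff_isUnit.2
      ((Matrix.isUnit_iff_isUnit_det _).2 (isUnit_iff_ne_zero.2 hne))
    have hsurj := Finite.surjective_of_injective hinj
    have e : ∀ x : RootIrred.Tors W p, (RootIrred.mat hΔ σ - 1) *ᵥ RootIrred.vec hΔ x =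
        RootIrred.vec hΔ (σ • x - x) := fun x => by
      rw [sub_mulVec, one_mulVec, RootIrred.mat_mulVec, map_sub]
    rcases EC.Reducible.semistable_fix_line_or_fix_quot W hΔ hss hp hp2 N hst hN0 hN1 with h' | h'
    · obtain ⟨x, hx, hx0⟩ := Submodule.exists_mem_ne_zero_of_ne_bot hN0
      refine hx0 ((RootIrred.vec (p := p) hΔ).injective (hinj ?_))
      rw [e, h' σ x hx, sub_self, _root_.map_zero]
      exact (Matrix.mulVec_zero _).symm
    · refine hN1 (Submodule.eq_top_iff'.2 fun y => ?_)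
      obtain ⟨v, hv⟩ := hsurj (RootIrred.vec hΔ y)
      obtain ⟨x, rfl⟩ := (RootIrred.vec (p := p) hΔ).surjective v
      rw [e] at hv
      exact (RootIrred.vec hΔ).injective hv ▸ h' σ x
  obtain ⟨t, d, -⟩ := EC.Frobenius.trace_det_charpoly (ℓ := p) hℓ hg hℓp.symm hA hσ
  rw [galoisTrace_def] at t
  have htr : (RootIrred.mat (p := p) hΔ σ).trace = (W.apOfModel ℓ : ZMod p) := by
    rw [← t]; exact (LinearMap.trace_eq_matrix_trace _ (RootIrred.torsBasis (p := p) hΔ) _).symm
  have hde : (RootIrred.mat (p := p) hΔ σ).det = (ℓ : ZMod p) := by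
    rw [← d]; exact LinearMap.det_toMatrix (RootIrred.torsBasis (p := p) hΔ) _
  refine h ((ZMod.intCast_zmod_eq_zero_iff_dvd _ p).1 ?_)
  rw [Matrix.det_fin_two] at hdet hde
  rw [Matrix.trace_fin_two] at htr
  simp only [Matrix.sub_apply, Matrix.one_apply_eq, Matrix.one_apply, Fin.zero_ne_one,
    Fin.one_eq_zero_iff, if_false, OfNat.ofNat_ne_one] at hdet
  push_cast
  simp at hdet
  linear_combination -hdet + hde - htr

end Fermat.Agent.SwitchGen
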