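import Mathlib
import Fermat.Agent.SwitchFive.CuspRoot
import Fermat.Agent.Gal.Residue

/-!
# The parameter of the fibre near a cusp, for supersingular invariants at 2

Over invariants `(16 α, 8 β)` with `α`, `Δ` odd and `β ≡ 1 (mod 4)` the equation of `G = (x/y)⁵` has
a root `G = 1 + 2u` with `u` in the maximal ideal, a limit of integers; there `h = 16 H`, `t = 8 T`
with `T ≡ 3`, `H ≡ α (mod 4)`.

Main result: `exists_cusp_root_ss`.
-/

set_option autoImplicit false

open Polynomial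

namespace Fermat.Agent.SwitchGen

open Fermat.Agent.SwitchFive

local notation "Qbar" => AlgebraicClosure ℚ

section Forms

variable {R : Type*} [CommRing R]

/-- `hG (1 + 2u) / 16`. -/
def hU (u : R) : R := 31 + 67 * u - 46 * u ^ 2 - 112 * u ^ 3 + u ^ 4

/-- `tG (1 + 2u) / 8`. -/
def tU (u : R) : R :=
  -2501 - 14484 * u - 32400 * u ^ 2 - 34780 * u ^ 3 - 14760 * u ^ 4 + 2112 * u ^ 5 + 8 * u ^ 6

/-- `qG (1 + 2u)`. -/
def qU (u : R) : R := 11 + 26 * u + 4 * u ^ 2

/-- `gEq Δ (16 α) (1 + 2u) / 4096`. -/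
def fEq (Δ α u : R) : R := Δ * hU u ^ 3 + α ^ 3 * (1 + 2 * u) * qU u ^ 5

theorem hG_eq (u : R) : hG (1 + 2 * u) = 16 * hU u := by simp only [hG, hU]; ring

theorem tG_eq (u : R) : tG (1 + 2 * u) = 8 * tU u := by simp only [tG, tU]; ring

theorem qG_eq (u : R) : qG (1 + 2 * u) = qU u := by simp only [qG, qU]; ring

theorem gEq_eq (Δ α u : R) : gEq Δ (16 * α) (1 + 2 * u) = 4096 * fEq Δ α u := by
  rw [gEq, hG_eq, qG_eq, fEq]; ring

/-- The divided difference of `fEq`. -/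
def fDiff (Δ α u v : R) : R :=
  Δ * (67 - 46 * (u + v) - 112 * (u ^ 2 + u * v + v ^ 2) + (u + v) * (u ^ 2 + v ^ 2))
      * (hU u ^ 2 + hU u * hU v + hU v ^ 2)
    + α ^ 3 * (2 * qU u ^ 5 + (1 + 2 * v) * ((26 + 4 * (u + v)) * (qU u ^ 4 + qU u ^ 3 * qU v
        + qU u ^ 2 * qU v ^ 2 + qU u * qU v ^ 3 + qU v ^ 4)))

theorem fEq_sub (Δ α u v : R) : fEq Δ α u - fEq Δ α v = (u - v) * fDiff Δ α u v := by
  simp only [fEq, fDiff, hU, qU]; ring

end Forms

variable {A : ValuationSubring Qbar} (hA : A.LiesOverPrime 2)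
include hA

theorem residue_two : IsLocalRing.residue A (2 : A) = 0 := by
  rw [IsLocalRing.residue_eq_zero_iff, IsLocalRing.mem_maximalIdeal]
  exact not_isUnit_two hA

theorem residue_intCast_of_odd {z : ℤ} (hz : Odd z) :
    IsLocalRing.residue A (z : A) = 1 := by
  obtain ⟨k, rfl⟩ := hz
  simp [residue_two hA]

omit hA in
theorem isUnit_of_residue_one {x : A} (hx : IsLocalRing.residue A x = 1) : IsUnit x :=
  IsLocalRing.notMem_maximalIdeal.1 fun h => by
    rw [(IsLocalRing.residue_eq_zero_iff x).2 h] at hx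
    exact zero_ne_one hx

variable {Δ α : ℤ} (hΔ : Odd Δ) (hα : Odd α)
include hΔ hα

theorem residue_fDiff {u v : A} (hu : IsLocalRing.residue A u = 0)
    (hv : IsLocalRing.residue A v = 0) :
    IsLocalRing.residue A (fDiff (Δ : A) α u v) = 1 := by
  have h2 : (2 : IsLocalRing.ResidueField A) = 0 := by simpa [map_ofNat] using residue_two hA
  simp only [fDiff, hU, qU, map_add, map_sub, map_mul, map_pow, map_ofNat, map_one, hu, hv,
    residue_intCast_of_odd hA hΔ, residue_intCast_of_odd hA hα]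
  linear_combination 1209296 * h2

theorem exists_fEq_root : ∃ u : A, IsLocalRing.residue A u = 0 ∧ fEq (Δ : A) α u = 0 := by
  obtain ⟨Δ', hΔ'⟩ := ((isUnit_intCast_iff hA Δ).2 hΔ).exists_left_inv
  set h : A[X] := 31 + 67 * X - 46 * X ^ 2 - 112 * X ^ 3 + X ^ 4
  set q : A[X] := 11 + 26 * X + 4 * X ^ 2
  set p : A[X] := h ^ 3 + C (Δ' * (α : A) ^ 3) * (1 + 2 * X) * q ^ 5 with hp
  have hh : h.Monic := by simp only [h]; monicity!
  have hhd : h.natDegree = 4 := by simp only [h]; compute_degree!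
  have hdeg : (C (Δ' * (α : A) ^ 3) * (1 + 2 * X) * q ^ 5).natDegree ≤ 11 := by
    have h1 : (C (Δ' * (α : A) ^ 3) * (1 + 2 * X)).natDegree ≤ 1 := by
      refine natDegree_mul_le.trans ?_
      rw [natDegree_C, zero_add]
      compute_degree!
    have h2 : (q ^ 5).natDegree ≤ 10 := by
      refine natDegree_pow_le.trans ?_
      have : q.natDegree ≤ 2 := by simp only [q]; compute_degree!
      omega
    exact natDegree_mul_le.trans (Nat.add_le_add h1 h2)
  have hpm : p.Monic := by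
    refine (hh.pow 3).add_of_left ?_
    refine lt_of_le_of_lt (degree_le_natDegree.trans (WithBot.coe_le_coe.2 hdeg)) ?_
    rw [degree_eq_natDegree (hh.pow 3).ne_zero, natDegree_pow, hhd]
    exact WithBot.coe_lt_coe.2 (by norm_num)
  have hev : ∀ u : A, p.eval u = Δ' * fEq (Δ : A) α u := fun u => by
    simp only [hp, h, q, fEq, hU, qU, eval_add, eval_mul, eval_pow, eval_C, eval_X, eval_sub,
      eval_ofNat, eval_one]
    linear_combination -((31 + 67 * u - 46 * u ^ 2 - 112 * u ^ 3 + u ^ 4) ^ 3) * hΔ'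
  obtain ⟨u, hu, hur⟩ := Gal.exists_root_residue_eq A hpm (c := 0) (by
    have h2 : (2 : IsLocalRing.ResidueField A) = 0 := by simpa [map_ofNat] using residue_two hA
    have hd' : IsLocalRing.residue A Δ' = 1 := by
      have := congrArg (IsLocalRing.residue A) hΔ'
      rwa [map_mul, residue_intCast_of_odd hA hΔ, mul_one, map_one] at this
    simp only [hp, h, q, IsRoot.def, eval_map, eval₂_add, eval₂_mul, eval₂_pow, eval₂_C, eval₂_X,
      eval₂_sub, eval₂_ofNat, eval₂_one, map_mul, map_pow, residue_intCast_of_odd hA hα, hd']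
    linear_combination 95421 * h2)
  refine ⟨u, hur, ?_⟩
  have := congrArg ((Δ : A) * ·) (hu.eq_zero ▸ (hev u).symm)
  simp only [mul_zero] at this
  linear_combination this - fEq (Δ : A) α u * hΔ'

omit hA in
/-- Integral approximations of the root. -/
theorem exists_fEq_approx (n : ℕ) : ∃ g : ℤ, 2 ∣ g ∧ (2 : ℤ) ^ (n + 1) ∣ fEq Δ α g := by
  have hE : ∀ u v : ℤ, (2 : ℤ) ∣ u → (2 : ℤ) ∣ v → Odd (fDiff Δ α u v) := by
    intro u v hu hv
    have h0 : ∀ z : ℤ, 2 ∣ z → (z : ZMod 2) = 0 := fun z hz =>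
      (ZMod.intCast_zmod_eq_zero_iff_dvd z 2).2 (by exact_mod_cast hz)
    have h1 : ∀ z : ℤ, Odd z → (z : ZMod 2) = 1 := fun z ⟨k, hk⟩ => by
      rw [hk]; push_cast; rw [show (2 : ZMod 2) = 0 by decide]; ring
    have h2 : ((fDiff Δ α u v : ℤ) : ZMod 2) = 1 := by
      simp only [fDiff, hU, qU]
      push_cast
      rw [h0 u hu, h0 v hv, h1 Δ hΔ, h1 α hα]
      decide
    rcases Int.even_or_odd (fDiff Δ α u v) with he | ho
    · rw [h0 _ (even_iff_two_dvd.1 he)] at h2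
      exact absurd h2 (by decide)
    · exact ho
  induction n with
  | zero =>
    refine ⟨0, dvd_zero _, ?_⟩
    obtain ⟨k, rfl⟩ := hΔ
    obtain ⟨j, rfl⟩ := hα
    exact ⟨29791 * k + 161051 * (4 * j ^ 3 + 6 * j ^ 2 + 3 * j) + 95421, by
      simp only [fEq, hU, qU]; ring⟩
  | succ n ih =>
    obtain ⟨g, hg, hd⟩ := ih
    by_cases h : (2 : ℤ) ^ (n + 2) ∣ fEq Δ α g
    · exact ⟨g, hg, h⟩
    refine ⟨g + 2 ^ (n + 1), hg.add (dvd_pow_self _ (by omega)), ?_⟩
    obtain ⟨t, ht⟩ := hd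
    have hto : Odd t := Int.not_even_iff_odd.1 fun he => h (by
      rw [ht, pow_succ (2 : ℤ) (n + 1)]; exact mul_dvd_mul_left _ (even_iff_two_dvd.1 he))
    obtain ⟨w, hw⟩ := hto.add_odd
      (hE (g + 2 ^ (n + 1)) g (hg.add (dvd_pow_self _ (by omega))) hg)
    refine ⟨w, ?_⟩
    have e := fEq_sub Δ α (g + 2 ^ (n + 1)) g
    rw [ht, add_sub_cancel_left] at e
    rw [pow_succ (2 : ℤ) (n + 1)]
    linear_combination e + (2 : ℤ) ^ (n + 1) * hw

/-- **The root** with its congruences modulo 4, given `Δ ≡ 1 (mod 4)`. -/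
theorem exists_cusp_root_ss (hΔ4 : (4 : ℤ) ∣ Δ - 1) :
    ∃ u : A, Approx u ∧ gEq (Δ : A) (16 * (α : A)) (1 + 2 * u) = 0 ∧
      IsUnit (hU u) ∧ IsUnit (tU u) ∧ IsUnit (qU u) ∧
      (4 : A) ∣ tU u - 3 ∧ (4 : A) ∣ hU u - (α : A) := by
  obtain ⟨u, hu, hu0⟩ := exists_fEq_root hA hΔ hα
  have hua : Approx u := fun n => by
    obtain ⟨g, hg, hd⟩ := exists_fEq_approx hΔ hα n
    refine ⟨g, ?_⟩
    have hg0 : IsLocalRing.residue A (g : A) = 0 := by
      rw [IsLocalRing.residue_eq_zero_iff, IsLocalRing.mem_maximalIdeal]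
      exact not_isUnit_of_two_dvd hA (by simpa using (Int.castRingHom A).map_dvd hg)
    have hd' : (2 : A) ^ n ∣ fEq (Δ : A) α (g : A) := by
      refine (pow_dvd_pow _ n.le_succ).trans ?_
      have := (two_pow_dvd_intCast_iff hA _ _).2 hd
      simpa [fEq, hU, qU] using this
    have hfac := fEq_sub (Δ : A) α u (g : A)
    rw [hu0, zero_sub] at hfac
    exact ((isUnit_of_residue_one (residue_fDiff hA hΔ hα hu hg0)).dvd_mul_right).1
      (hfac ▸ hd'.neg_right)
  have h2 : (2 : IsLocalRing.ResidueField A) = 0 := by simpa [map_ofNat] using residue_two hA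
  have hhu : IsUnit (hU u) := isUnit_of_residue_one (by
    simp only [hU, map_add, map_sub, map_mul, map_pow, map_ofNat, hu]
    linear_combination 15 * h2)
  have htu : IsUnit (tU u) := isUnit_of_residue_one (by
    simp only [tU, map_add, map_sub, map_mul, map_pow, map_ofNat, map_neg, hu]
    linear_combination -1251 * h2)
  have hqu : IsUnit (qU u) := isUnit_of_residue_one (by
    simp only [qU, map_add, map_mul, map_pow, map_ofNat, hu]
    linear_combination 5 * h2)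
  refine ⟨u, hua, by rw [gEq_eq, hu0, mul_zero], hhu, htu, hqu, ?_, ?_⟩
  · exact ⟨-626 - 3621 * u - 8100 * u ^ 2 - 8695 * u ^ 3 - 3690 * u ^ 4 + 528 * u ^ 5 + 2 * u ^ 6,
      by simp only [tU]; ring⟩
  · have hha : Approx (hU u) := by
      rw [hU]
      exact (((((approx_ofNat 31).add ((approx_ofNat 67).mul hua)).sub
        ((approx_ofNat 46).mul (hua.pow 2))).sub ((approx_ofNat 112).mul (hua.pow 3))).add
        (hua.pow 4))
    obtain ⟨a, ha⟩ := hha.four_dvd_sq_sub_one hA hhu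
    obtain ⟨b, hb⟩ := Approx.four_dvd_sq_sub_one hA (approx_intCast α)
      ((isUnit_intCast_iff hA α).2 hα)
    obtain ⟨c, hc⟩ : (4 : A) ∣ (Δ : A) - 1 := by simpa using (Int.castRingHom A).map_dvd hΔ4
    obtain ⟨d, hd⟩ : (4 : A) ∣ qU u ^ 4 - 1 := by
      refine Dvd.dvd.trans ?_ (show qU u ^ 2 - 1 ∣ qU u ^ 4 - 1 from ⟨qU u ^ 2 + 1, by ring⟩)
      exact ⟨(5 + 13 * u + 2 * u ^ 2) * (5 + 13 * u + 2 * u ^ 2 + 1), by simp only [qU]; ring⟩
    obtain ⟨e, he⟩ : (4 : A) ∣ (1 + 2 * u) * qU u + 1 :=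
      ⟨3 + 12 * u + 14 * u ^ 2 + 2 * u ^ 3, by simp only [qU]; ring⟩
    refine ⟨-(hU u * a) + (α : A) * b - c * hU u ^ 3
      - (α : A) ^ 3 * ((1 + 2 * u) * qU u * d + e), ?_⟩
    simp only [fEq] at hu0
    linear_combination hu0 - hU u * ha + (α : A) * hb - hU u ^ 3 * hc
      - (α : A) ^ 3 * ((1 + 2 * u) * qU u) * hd - (α : A) ^ 3 * he

end Fermat.Agent.SwitchGen
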