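import Mathlib
import Fermat.Agent.SwitchFive.LocalTwo
import Fermat.Agent.SwitchGen.CuspRootSS

/-!
# The pencil at a supersingular curve over 2, near a cusp

Over invariants `(16 α, 8 β)` with `α`, `Δ` odd and `β ≡ 1 (mod 4)` the pencil reaches members
multiplicative at 2 of any depth `5 (m - 2)`.

Main result: `exists_two_adic_pencil_ss`.
-/

set_option autoImplicit false

namespace Fermat.Agent.SwitchGen

open Fermat.Agent.Switch Fermat.Agent.SwitchFive

local notation "Qbar" => AlgebraicClosure ℚ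

/-- **The local data at 2.** A fibre point of the pencil and an admissible direction such that, for
every `m ≥ 4`, the parameters in one class modulo `2^(m+1)` give invariants `(2⁴⁰ α, 2⁶⁰ β)` with
`α` a unit, `β ≡ 3 (mod 4)` and `(α³ - β²)/1728 = 2^(5(m-2)) · unit`. -/
theorem exists_two_adic_pencil_ss {A : ValuationSubring Qbar} (hA : A.LiesOverPrime 2)
    (W : WeierstrassCurve ℤ) (hΔo : Odd W.Δ) {α₀ β₀ : ℤ} (h4 : W.c₄ = 16 * α₀) (hα₀ : Odd α₀)
    (h6 : W.c₆ = 8 * β₀) (hβ₀ : 4 ∣ β₀ - 1) :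
    ∃ (v : Qbar × Qbar) (κ : ℤ), InFibre (W.c₄ : Qbar) (W.c₆ : Qbar) v ∧
      dP (covP v + (κ : Qbar) • v) ≠ 0 ∧
      ∀ m : ℕ, 4 ≤ m → ∃ r : ℤ, ∀ μ : ℤ, (2 : ℤ) ^ (m + 1) ∣ μ - r →
        ∃ α β δ w : A, hP (pencil (μ : Qbar) (κ : Qbar) v) = 2 ^ 40 * (α : Qbar) ∧
          tP (pencil (μ : Qbar) (κ : Qbar) v) = 2 ^ 60 * (β : Qbar) ∧ IsUnit α ∧
          (4 : A) ∣ β - 3 ∧ α ^ 3 - β ^ 2 = 1728 * δ ∧ IsUnit w ∧
          δ = 2 ^ (5 * (m - 2)) * w := by
  have hΔ : W.Δ ≠ 0 := fun h => by rw [h] at hΔo; exact absurd hΔo (by decide)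
  have hΔ4 : (4 : ℤ) ∣ W.Δ - 1 := by
    obtain ⟨k, hk⟩ := hβ₀
    have h27 : 27 * W.Δ = 64 * α₀ ^ 3 - β₀ ^ 2 := by
      have := W.c_relation
      rw [h4, h6] at this
      refine mul_left_cancel₀ (show (64 : ℤ) ≠ 0 by norm_num) ?_
      linear_combination this
    exact ⟨7 * W.Δ - 16 * α₀ ^ 3 + 4 * k ^ 2 + 2 * k, by
      rw [show β₀ = 4 * k + 1 by linear_combination hk] at h27
      linear_combination -h27⟩
  obtain ⟨u₀, hu₀a, hG0, hHu, hTu, hqu₀, hT4, hH4⟩ := exists_cusp_root_ss hA hΔo hα₀ hΔ4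
  set G : A := 1 + 2 * u₀ with hGdef
  have hGa : Approx G := approx_one.add ((approx_ofNat 2).mul hu₀a)
  have hGu : IsUnit G := isUnit_add_of_two_dvd hA isUnit_one (dvd_mul_right _ _)
  set a : A := (W.c₄ : A) with hadef
  set b : A := (W.c₆ : A) with hbdef
  have ha16 : a = 16 * (α₀ : A) := by rw [hadef, h4]; push_cast; ring
  have hb8 : b = 8 * (β₀ : A) := by rw [hbdef, h6]; push_cast; ring
  rw [← ha16] at hG0
  have h1728 : 1728 * (W.Δ : A) = a ^ 3 - b ^ 2 := by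
    have := congrArg (Int.cast : ℤ → A) W.c_relation
    push_cast at this; exact this
  have hrel := gEq_eq_zero_rel h1728 hG0
  have hαu : IsUnit (α₀ : A) := (isUnit_intCast_iff hA _).2 hα₀
  have hHa' : Approx (hU u₀) := by
    rw [hU]
    exact (((((approx_ofNat 31).add ((approx_ofNat 67).mul hu₀a)).sub
      ((approx_ofNat 46).mul (hu₀a.pow 2))).sub ((approx_ofNat 112).mul (hu₀a.pow 3))).add
      (hu₀a.pow 4))
  have hta : Approx (tU u₀) := by
    rw [tU]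
    exact ((((((approx_intCast (-2501)).sub ((approx_ofNat 14484).mul hu₀a)).sub
      ((approx_ofNat 32400).mul (hu₀a.pow 2))).sub ((approx_ofNat 34780).mul (hu₀a.pow 3))).sub
      ((approx_ofNat 14760).mul (hu₀a.pow 4))).add ((approx_ofNat 2112).mul (hu₀a.pow 5))).add
      ((approx_ofNat 8).mul (hu₀a.pow 6)) |> fun h => by simpa using h
  obtain ⟨n', hn'⟩ := (hαu.mul hTu).exists_right_inv
  set P : A := -((β₀ : A) * hU u₀) * n' with hPdef
  have hPa : Approx P :=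
    (((approx_intCast _).mul hHa').neg).mul
      (Approx.of_mul_eq_one hA ((approx_intCast _).mul hta) hn')
  have hat0 : (α₀ : A) * tU u₀ * P = -((β₀ : A) * hU u₀) := by
    rw [hPdef]; linear_combination -((β₀ : A) * hU u₀) * hn'
  have hP4 : (4 : A) ∣ P - 1 := by
    have h1 : (4 : A) ∣ (P - 1) * ((α₀ : A) * tU u₀) := by
      have e : (P - 1) * ((α₀ : A) * tU u₀) = -(((β₀ : A) - 1) * hU u₀) - (hU u₀ - (α₀ : A))
          - (α₀ : A) * (tU u₀ - 3) - 4 * (α₀ : A) := by linear_combination hat0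
      rw [e]
      have h3 : (4 : A) ∣ (β₀ : A) - 1 := by simpa using (Int.castRingHom A).map_dvd hβ₀
      exact ((((h3.mul_right _).neg_right).sub hH4).sub (hT4.mul_left _)).sub (dvd_mul_right _ _)
    exact (hαu.mul hTu).dvd_mul_right.1 h1
  have hat : a * tG G * P = -(b * hG G) := by
    rw [hGdef, tG_eq, hG_eq, ha16, hb8]; linear_combination 128 * hat0
  have hatne : a * tG G ≠ 0 := by
    rw [hGdef, tG_eq, ha16]
    exact mul_ne_zero (mul_ne_zero (by norm_num) hαu.ne_zero)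
      (mul_ne_zero (by norm_num) hTu.ne_zero)
  have hHa : P ^ 2 * hG G = a := by
    refine mul_right_cancel₀ (pow_ne_zero 2 hatne) ?_
    linear_combination hG G * (a * tG G * P - b * hG G) * hat + hrel
  have hTb : -(P ^ 3 * tG G) = b := by
    refine mul_right_cancel₀ hatne ?_
    linear_combination -(tG G) * P ^ 2 * hat + b * tG G * hHa
  obtain ⟨v, κ, hv, hκ, hkey⟩ := exists_pencil_of_root hA W hΔ hGa hPa hP4
    (by rw [hGdef, qG_eq]; exact hqu₀) hHa hTb (e₀ := 1) (by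
      rw [Int.cast_one, add_comm, hGdef, show (1 + 2 * u₀) ^ 2 + 66 * (1 + 2 * u₀) - 11
        = 2 * (28 + 68 * u₀ + 2 * u₀ ^ 2) by ring]
      exact isUnit_add_of_two_dvd hA isUnit_one ((dvd_mul_right _ _).mul_left _).neg_right)
  refine ⟨v, κ, hv, hκ, fun m hm => ?_⟩
  obtain ⟨r, hr⟩ := hkey m hm
  refine ⟨r, fun μ hμ => ?_⟩
  obtain ⟨α, β, δ, w, hα, hβ, hαu, hβ4, hrel, hwu, hδ⟩ := hr μ hμ
  exact ⟨α, β, δ, G * w, hα, hβ, hαu, hβ4, hrel, hGu.mul hwu, hδ⟩

end Fermat.Agent.SwitchGen
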