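import Mathlib
import Fermat.Agent.SwitchFive.Main
import Fermat.Agent.SwitchGen.LocalTwoSS

/-!
# The switch at 5 from supersingular reduction at 2

From a curve supersingular at 2, a switch at 5 gives a curve multiplicative at 2 with `3 ∤ v₂(Δ')`
and irreducible 3-torsion (`exists_switch_five_ss`).
-/

set_option autoImplicit false

namespace Fermat.Agent.SwitchGen

open Fermat.Agent.Switch Fermat.Agent.SwitchFive

local notation "Qbar" => AlgebraicClosure ℚ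

/-- **The switch at 5** from supersingular to multiplicative reduction at 2. -/
theorem exists_switch_five_ss (W : WeierstrassCurve ℤ) (hΔ : W.Δ ≠ 0) (hss : W.IsSemistableModel)
    (h2 : ¬ (2 : ℤ) ∣ W.Δ) {α₀ β₀ : ℤ} (h4 : W.c₄ = 16 * α₀) (hα₀ : Odd α₀)
    (h6 : W.c₆ = 8 * β₀) (hβ₀ : 4 ∣ β₀ - 1) :
    ∃ W' : WeierstrassCurve ℤ, W'.Δ ≠ 0 ∧ W'.IsSemistableModel ∧ (2 : ℤ) ∣ W'.Δ ∧
      ¬ 3 ∣ padicValInt 2 W'.Δ ∧ W'.ModRepIsIrreducible 3 ∧ Root.CongrMod 5 W W' ∧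
      ((5 : ℤ) ∣ W.Δ ↔ (5 : ℤ) ∣ W'.Δ) ∧ ((3 : ℤ) ∣ W.Δ ↔ (3 : ℤ) ∣ W'.Δ) ∧
      ((3 : ℤ) ∣ W.c₄ ↔ (3 : ℤ) ∣ W'.c₄) := by
  have hΔo : Odd W.Δ := Int.not_even_iff_odd.1 fun he => h2 (even_iff_two_dvd.1 he)
  obtain ⟨m, hm, hm3⟩ : ∃ m : ℕ, 4 ≤ m ∧ ¬ 3 ∣ 5 * (m - 2) := ⟨4, le_rfl, by norm_num⟩
  obtain ⟨A, hA⟩ := Fermat.Agent.Gal.exists_liesOverPrime (L := Qbar) Nat.prime_two
  obtain ⟨v, κ, hv, hκ, hkey⟩ := exists_two_adic_pencil_ss hA W hΔo h4 hα₀ h6 hβ₀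
  obtain ⟨r, hr⟩ := hkey m hm
  exact exists_switch_of_pencil W hΔ hss hA (n := 0) hΔo (by rw [pow_zero, one_mul])
    (by simpa using hm3) hv hκ (r := r) (by simpa using hr)

end Fermat.Agent.SwitchGen
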