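import Mathlib
import Fermat.Agent.SwitchThree.Hesse
import Fermat.Agent.Density.Places
import Fermat.Agent.Gal.Unramified
import Fermat.Agent.Gal.Residue
import Fermat.Prelude.Def_GaloisRep_ComplexConjugation

/-!
# An auxiliary prime for the switch at 3

For any pencil there are large primes `ℓ ≡ 11 (mod 15)` at which some member has `c₄ ≡ 0`. The
quartic `c4L (·, 1)` has discriminant `-3` times a square, so the sixth power of an element fixing
`√-3` fixes all its roots, and complex conjugation fixes a real one.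

Main result: `exists_aux_prime`.
-/

set_option autoImplicit false

noncomputable section

open Polynomial
open scoped Pointwise

namespace Fermat.Agent.SwitchGen

open Fermat.Agent.SwitchThree

local notation "Qbar" => AlgebraicClosure ℚ
local notation "Γ" => AlgebraicClosure ℚ ≃ₐ[ℚ] AlgebraicClosure ℚ

/-- `a³` times `c4L (·, 1)` in the variable `a l + b`, where `D = a³ - b²`. -/
def jZeroPoly {R : Type*} [CommRing R] (D b L : R) : R :=
  L ^ 4 + 6 * D * L ^ 2 - 8 * b * D * L - 3 * D ^ 2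

theorem jZeroPoly_eq {R : Type*} [CommRing R] (l a b : R) :
    a ^ 3 * c4L l 1 a b = jZeroPoly (a ^ 3 - b ^ 2) b (a * l + b) := by
  simp only [jZeroPoly, c4L]; ring

theorem map_jZeroPoly {R S : Type*} [CommRing R] [CommRing S] (f : R →+* S) (D b L : R) :
    f (jZeroPoly D b L) = jZeroPoly (f D) (f b) (f L) := by
  simp [jZeroPoly, map_ofNat]

theorem quartic_disc {R : Type*} [CommRing R] (u v w x p q s : R)
    (h1 : u + v + w + x = 0) (h2 : u*v + u*w + u*x + v*w + v*x + w*x = p)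
    (h3 : u*v*w + u*v*x + u*w*x + v*w*x = q) (h4 : u*v*w*x = s) :
    ((v - u) * (w - u) * (x - u) * ((w - v) * (x - v)) * (x - w)) ^ 2 =
      16*p^4*s - 4*p^3*q^2 - 128*p^2*s^2 + 144*p*q^2*s - 27*q^4 + 256*s^3 := by
  obtain rfl : x = -(u + v + w) := by linear_combination h1
  subst h2 h3 h4
  ring

theorem perm_four_pow_six : ∀ π : Equiv.Perm (Fin 4),
    Equiv.Perm.sign π = 1 → ∀ i, (π ^ 6) i = i := by
  decide +kernel

/-- An element with `ζ ↦ ζ⁷` for a primitive 15th root of unity. -/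
theorem exists_apply_zeta {ζ : Qbar} (hζ : IsPrimitiveRoot ζ 15) : ∃ τ : Γ, τ ζ = ζ ^ 7 := by
  have hζ' : IsPrimitiveRoot (ζ ^ 7) 15 := hζ.pow_of_coprime _ (by norm_num)
  have : Normal ℚ Qbar := Fermat.Agent.Gal.isGalois_rat_qbar.to_normal
  have hmin : minpoly ℚ ζ = minpoly ℚ (ζ ^ 7) := by
    rw [← Polynomial.cyclotomic_eq_minpoly_rat hζ (by norm_num),
      ← Polynomial.cyclotomic_eq_minpoly_rat hζ' (by norm_num)]
  exact (isConjRoot_iff_exists_algEquiv (K := ℚ)).1 hmin.symm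

theorem complexConjugation_apply_zeta {ζ : Qbar} {n : ℕ} (hn : n ≠ 0) (hζ : ζ ^ n = 1) :
    complexConjugation ζ = ζ⁻¹ := by
  apply complexEmbedding.toRingHom.injective
  change complexEmbedding (complexConjugation ζ) = complexEmbedding ζ⁻¹
  rw [complexEmbedding_complexConjugation, map_inv₀]
  have hnorm : ‖complexEmbedding ζ‖ = 1 := Complex.norm_eq_one_of_pow_eq_one
    (by rw [← map_pow, hζ, map_one]) hn
  exact (Complex.inv_eq_conj hnorm).symm

theorem exists_real_root (D b : ℤ) (hD : D ≠ 0) :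
    ∃ x : ℝ, jZeroPoly (D : ℝ) (b : ℝ) x = 0 := by
  set f : ℝ → ℝ := fun x => jZeroPoly (D : ℝ) (b : ℝ) x with hf
  set K : ℝ := 1 + |(D : ℝ)| + |(b : ℝ)| with hK
  have hK1 : 1 ≤ K := by have := abs_nonneg (D : ℝ); have := abs_nonneg (b : ℝ); linarith
  set X : ℝ := 20 * K ^ 2 with hX
  have hX1 : 20 ≤ X := by nlinarith
  have h0 : f 0 ≤ 0 := by simp only [hf, jZeroPoly]; nlinarith
  have h1 : 0 ≤ f X := by
    have hd : |(D : ℝ)| ≤ K := by have := abs_nonneg (b : ℝ); linarith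
    have hb : |(b : ℝ)| ≤ K := by have := abs_nonneg (D : ℝ); linarith
    have hKK : K ≤ K ^ 2 := by nlinarith
    have hbD : (b : ℝ) * D ≤ K ^ 2 := by
      calc (b : ℝ) * D ≤ |(b : ℝ) * D| := le_abs_self _
        _ = |(b : ℝ)| * |(D : ℝ)| := abs_mul _ _
        _ ≤ K * K := by gcongr
        _ = _ := by ring
    have hDD : (D : ℝ) ^ 2 ≤ K ^ 2 := by rw [← sq_abs]; gcongr
    have hD' : -K ≤ (D : ℝ) := by have := neg_abs_le (D : ℝ); linarith
    have hX2 : 0 ≤ X ^ 2 := sq_nonneg X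
    simp only [hf, jZeroPoly]
    nlinarith [mul_le_mul_of_nonneg_left hX1 hX2, mul_le_mul_of_nonneg_left hKK hX2]
  have hc : Continuous f := by simp only [hf, jZeroPoly]; continuity
  obtain ⟨x, -, hx⟩ := intermediate_value_Icc (show (0 : ℝ) ≤ X by linarith) hc.continuousOn
    (Set.mem_Icc.2 ⟨h0, h1⟩)
  exact ⟨x, hx⟩

/-- The four roots, one of them real, with the Galois element `c τ⁶`. -/
theorem exists_fixed_root (D b : ℤ) (a : ℤ) (hD : D = a ^ 3 - b ^ 2) (hD0 : D ≠ 0) (ha : a ≠ 0)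
    {ζ : Qbar} (hζ : IsPrimitiveRoot ζ 15) :
    ∃ (r : Qbar) (σ : Γ), jZeroPoly (D : Qbar) (b : Qbar) r = 0 ∧ σ r = r ∧ σ ζ = ζ ^ 11 := by
  set p : Qbar[X] := X ^ 4 + C (6 * (D : Qbar)) * X ^ 2 + C (-(8 * (b : Qbar) * D)) * X
    + C (-(3 * (D : Qbar) ^ 2)) with hp
  have hdeg : p.natDegree = 4 := by rw [hp]; compute_degree!
  have hev : ∀ z : Qbar, p.eval z = jZeroPoly (D : Qbar) b z := fun z => by
    simp only [hp, jZeroPoly, eval_add, eval_mul, eval_pow, eval_X, eval_C]; ring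
  have hcard : Multiset.card p.roots = 4 := by
    rw [← (IsAlgClosed.splits p).natDegree_eq_card_roots, hdeg]
  obtain ⟨u, v, w, x, hroots⟩ : ∃ u v w x : Qbar, p.roots = {u, v, w, x} := by
    obtain ⟨u, hu⟩ := Multiset.card_pos_iff_exists_mem.1 (show 0 < p.roots.card by omega)
    obtain ⟨s, hs⟩ := Multiset.exists_cons_of_mem hu
    rw [hs, Multiset.card_cons] at hcard
    obtain ⟨v, w, x, rfl⟩ := Multiset.card_eq_three.1 (show s.card = 3 by omega)
    exact ⟨u, v, w, x, hs⟩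
  have hmonic : p.Monic := by rw [hp]; monicity!
  have hprod := (IsAlgClosed.splits p).eq_prod_roots_of_monic hmonic
  rw [hroots] at hprod
  have hval : ∀ z : Qbar, jZeroPoly (D : Qbar) b z = (z - u) * (z - v) * (z - w) * (z - x) := by
    intro z
    rw [← hev, hprod]
    simp [mul_assoc]
  have e0 := hval 0
  have e1 := hval 1
  have em := hval (-1)
  have e2 := hval 2
  simp only [jZeroPoly] at e0 e1 em e2
  have s4 : u * v * w * x = -(3 * (D : Qbar) ^ 2) := by linear_combination -e0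
  have s2 : u*v + u*w + u*x + v*w + v*x + w*x = 6 * (D : Qbar) := by
    linear_combination (-1/2 : Qbar) * e1 + (-1/2 : Qbar) * em + e0
  have s1 : u + v + w + x = 0 := by
    linear_combination (1/6 : Qbar) * e2 - (1/2 : Qbar) * e1 - (1/6 : Qbar) * em + (1/2 : Qbar) * e0
  have s3 : u*v*w + u*v*x + u*w*x + v*w*x = 8 * (b : Qbar) * D := by
    linear_combination (1/2 : Qbar) * e1 - (1/2 : Qbar) * em - s1
  set r : Fin 4 → Qbar := ![u, v, w, x] with hr
  have hroot : ∀ z, jZeroPoly (D : Qbar) b z = 0 ↔ ∃ i, z = r i := by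
    intro z
    rw [hval]
    simp [mul_eq_zero, sub_eq_zero, hr, Fin.exists_fin_succ, or_assoc]
  set V := (Matrix.vandermonde r).det with hV
  set ω : Qbar := ζ ^ 5 with hω
  have hω3 : IsPrimitiveRoot ω 3 := hζ.pow (by norm_num) (by norm_num)
  have hω2 : (2 * ω + 1) ^ 2 = -3 := by
    have h0 := hω3.geom_sum_eq_zero (by norm_num)
    simp only [Finset.sum_range_succ, Finset.sum_range_zero, pow_zero, pow_one, zero_add] at h0
    linear_combination 4 * h0
  have hVexp : V = (v - u) * (w - u) * (x - u) * ((w - v) * (x - v)) * (x - w) := by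
    rw [hV, Matrix.det_vandermonde, Fin.prod_univ_four,
      show Finset.Ioi (0 : Fin 4) = {1, 2, 3} by decide,
      show Finset.Ioi (1 : Fin 4) = {2, 3} by decide, show Finset.Ioi (2 : Fin 4) = {3} by decide,
      show Finset.Ioi (3 : Fin 4) = ∅ by decide]
    simp [hr, mul_assoc]
  have hV2 : V ^ 2 = ((192 : Qbar) * (D : Qbar) ^ 2 * (a : Qbar) ^ 3) ^ 2 * (2 * ω + 1) ^ 2 := by
    have hDb : (D : Qbar) + (b : Qbar) ^ 2 = (a : Qbar) ^ 3 := by
      rw [hD]; push_cast; ring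
    rw [hVexp, quartic_disc u v w x _ _ _ s1 s2 s3 s4, hω2, ← hDb]
    ring
  have hV0 : V ≠ 0 := fun h => by
    have h1 : (D : Qbar) ≠ 0 := by exact_mod_cast hD0
    have h2 : (a : Qbar) ≠ 0 := by exact_mod_cast ha
    rw [h, hω2] at hV2
    simp [h1, h2] at hV2
  have hinj : Function.Injective r := by
    have := Matrix.det_vandermonde_ne_zero_iff.1 (hV ▸ hV0)
    exact this
  obtain ⟨τ, hτ⟩ := exists_apply_zeta hζ
  have hτω : τ ω = ω := by
    rw [hω, map_pow, hτ, ← pow_mul, show 7 * 5 = 5 + 15 * 2 by norm_num, pow_add, pow_mul,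
      hζ.pow_eq_one, one_pow, mul_one]
  have hτV : τ V = V := by
    rcases eq_or_eq_neg_of_sq_eq_sq V ((192 : Qbar) * (D : Qbar) ^ 2 * (a : Qbar) ^ 3 * (2 * ω + 1))
      (by rw [hV2]; ring) with h | h <;> rw [h] <;> simp [hτω, map_ofNat]
  have hperm : ∀ i, ∃ j, τ (r i) = r j := fun i => (hroot _).1 (by
    have h := congrArg (τ : Qbar →+* Qbar) ((hroot (r i)).2 ⟨i, rfl⟩)
    rw [map_jZeroPoly] at h
    simpa using h)
  choose f hf using hperm
  have hfinj : Function.Injective f := fun i j h => hinj (τ.injective (by rw [hf, hf, h]))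
  set π : Equiv.Perm (Fin 4) := Equiv.ofBijective f (Finite.injective_iff_bijective.1 hfinj)
  have hsign : Equiv.Perm.sign π = 1 := by
    have h1 : τ V = (((Equiv.Perm.sign π : ℤˣ) : ℤ) : Qbar) * V := by
      have e : (Matrix.vandermonde r).map (τ : Qbar →+* Qbar) =
          (Matrix.vandermonde r).submatrix π id := by
        ext i j
        simp [Matrix.vandermonde_apply, π, hf]
      have := (τ : Qbar →+* Qbar).map_det (Matrix.vandermonde r)
      rw [RingHom.mapMatrix_apply, e, Matrix.det_permute] at this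
      exact this
    rw [hτV] at h1
    rcases Int.units_eq_one_or (Equiv.Perm.sign π) with h | h
    · exact h
    · rw [h] at h1
      exfalso
      apply hV0
      have h2 : (2 : Qbar) * V = 0 := by push_cast at h1; linear_combination h1
      simpa using h2
  have hpow : ∀ (n : ℕ) i, (τ ^ n) (r i) = r ((π ^ n) i) := by
    intro n
    induction n with
    | zero => simp
    | succ n ih =>
      intro i
      rw [pow_succ', pow_succ', AlgEquiv.mul_apply, ih, Equiv.Perm.mul_apply]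
      exact hf _
  obtain ⟨y, hy⟩ := exists_real_root D b hD0
  obtain ⟨i, hi⟩ : ∃ i, complexEmbedding (r i) = (y : ℂ) := by
    have h : jZeroPoly (D : ℂ) (b : ℂ) (y : ℂ) = 0 := by
      have := congrArg Complex.ofRealHom hy
      rw [map_jZeroPoly, _root_.map_zero] at this
      simpa using this
    have hC : ((y : ℂ) - complexEmbedding u) * ((y : ℂ) - complexEmbedding v) *
        ((y : ℂ) - complexEmbedding w) * ((y : ℂ) - complexEmbedding x) = 0 := by
      have s1' := congrArg complexEmbedding s1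
      have s2' := congrArg complexEmbedding s2
      have s3' := congrArg complexEmbedding s3
      have s4' := congrArg complexEmbedding s4
      simp only [map_add, map_mul, map_neg, map_pow, map_ofNat, map_intCast, _root_.map_zero]
        at s1' s2' s3' s4'
      simp only [jZeroPoly] at h
      linear_combination h - (y : ℂ) ^ 3 * s1' + (y : ℂ) ^ 2 * s2' - (y : ℂ) * s3' + s4'
    rcases mul_eq_zero.1 hC with h' | h'
    · rcases mul_eq_zero.1 h' with h' | h'
      · rcases mul_eq_zero.1 h' with h' | h'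
        · exact ⟨0, (sub_eq_zero.1 h').symm⟩
        · exact ⟨1, (sub_eq_zero.1 h').symm⟩
      · exact ⟨2, (sub_eq_zero.1 h').symm⟩
    · exact ⟨3, (sub_eq_zero.1 h').symm⟩
  refine ⟨r i, complexConjugation * τ ^ 6, (hroot _).2 ⟨i, rfl⟩, ?_, ?_⟩
  · rw [AlgEquiv.mul_apply, hpow, perm_four_pow_six π hsign]
    apply complexEmbedding.toRingHom.injective
    change complexEmbedding (complexConjugation (r i)) = complexEmbedding (r i)
    rw [complexEmbedding_complexConjugation, hi, Complex.conj_ofReal]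
  · have hτn : ∀ n : ℕ, (τ ^ n) ζ = ζ ^ (7 ^ n) := by
      intro n
      induction n with
      | zero => simp
      | succ n ih =>
        rw [pow_succ' τ, AlgEquiv.mul_apply, ih, map_pow, hτ, ← pow_mul, pow_succ']
    rw [AlgEquiv.mul_apply, hτn, map_pow, complexConjugation_apply_zeta (by norm_num) hζ.pow_eq_one,
      inv_pow]
    refine inv_eq_of_mul_eq_one_right ?_
    rw [← pow_add, hζ.pow_eq_one_iff_dvd]
    norm_num

/-- **The auxiliary prime.** -/
theorem exists_aux_prime {a b : ℤ} (hab : a ^ 3 ≠ b ^ 2) (N : ℕ) :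
    ∃ ℓ : ℕ, ℓ.Prime ∧ N < ℓ ∧ ℓ % 3 = 2 ∧ ℓ % 5 = 1 ∧ ∃ l₀ m₀ : ℤ,
      ¬ ((ℓ : ℤ) ∣ l₀ ∧ (ℓ : ℤ) ∣ m₀) ∧ (ℓ : ℤ) ∣ c4L l₀ m₀ a b := by
  classical
  have : NeZero (15 : ℕ) := ⟨by norm_num⟩
  obtain ⟨ζ, hζ⟩ := HasEnoughRootsOfUnity.exists_primitiveRoot Qbar 15
  rcases eq_or_ne a 0 with rfl | ha
  · obtain ⟨ℓ, hlt, hℓ, hmod⟩ := Nat.forall_exists_prime_gt_and_modEq N
      (q := 15) (a := 11) (by norm_num) (by norm_num)
    have hmod' : ℓ % 15 = 11 := hmod
    refine ⟨ℓ, hℓ, hlt, by omega, by omega, 1, 0, fun h => ?_, by simp [c4L]⟩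
    exact hℓ.one_lt.ne' (by exact_mod_cast Int.eq_one_of_dvd_one (by positivity) h.1)
  set D := a ^ 3 - b ^ 2 with hD
  have hD0 : D ≠ 0 := sub_ne_zero.2 hab
  obtain ⟨r, σ, hr, hσr, hσζ⟩ := exists_fixed_root D b a hD hD0 ha hζ
  have hrint : IsIntegral ℤ r := by
    refine ⟨X ^ 4 + C (6 * D) * X ^ 2 + C (-(8 * b * D)) * X + C (-(3 * D ^ 2)),
      by monicity!, ?_⟩
    rw [← aeval_def]
    simp only [jZeroPoly] at hr
    simp [map_ofNat]
    linear_combination hr
  set L : IntermediateField ℚ Qbar := IntermediateField.adjoin ℚ {r, ζ}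
  have : FiniteDimensional ℚ L := IntermediateField.finiteDimensional_adjoin fun x hx => by
    rcases hx with rfl | rfl
    · exact hrint.tower_top
    · exact ((hζ.isIntegral (by norm_num)).tower_top)
  have hrL : r ∈ L := IntermediateField.subset_adjoin ℚ _ (by simp)
  have hζL : ζ ∈ L := IntermediateField.subset_adjoin ℚ _ (by simp)
  set K := IntermediateField.normalClosure ℚ L Qbar
  have : Normal ℚ K := normalClosure.normal ℚ L Qbar
  obtain ⟨ℓ, hℓ, hℓS, hfrob⟩ := Density.exists_prime_zpowers_restrict_eq K σ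
    (Finset.range (max (max N 15) a.natAbs + 1))
  simp only [Finset.mem_range, not_lt] at hℓS
  obtain ⟨A₀, hA₀⟩ := Gal.exists_liesOverPrime (L := Qbar) hℓ
  obtain ⟨τ₀, hτ₀⟩ := Gal.exists_isFrobeniusAt hℓ hA₀
  obtain ⟨g, hg⟩ := (hfrob A₀ hA₀).2 τ₀ hτ₀
  set τ := g * τ₀ * g⁻¹ with hτdef
  set A := g • A₀ with hAdef
  have hA : A.LiesOverPrime ℓ := Gal.liesOverPrime_smul g hA₀
  have hτ : A.IsFrobeniusAt τ ℓ := (Gal.isFrobeniusAt_smul_iff g τ₀ A₀ ℓ).2 hτ₀
  have : Finite (K ≃ₐ[ℚ] K) := inferInstance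
  have transfer : ∀ φ ψ : Γ, Subgroup.zpowers (AlgEquiv.restrictNormalHom K φ) =
      Subgroup.zpowers (AlgEquiv.restrictNormalHom K ψ) →
      ∃ k : ℕ, ∀ x ∈ L, φ x = (ψ ^ k) x := by
    intro φ ψ h
    obtain ⟨k, hk⟩ := mem_powers_iff_mem_zpowers.2
      (h ▸ Subgroup.mem_zpowers (AlgEquiv.restrictNormalHom K φ))
    refine ⟨k, fun x hx => ?_⟩
    have hk' : AlgEquiv.restrictNormalHom K (ψ ^ k) = AlgEquiv.restrictNormalHom K φ := by
      rw [map_pow]; exact hk
    have h1 := AlgEquiv.restrictNormal_commutes (ψ ^ k) K ⟨x, L.le_normalClosure hx⟩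
    have h2 := AlgEquiv.restrictNormal_commutes φ K ⟨x, L.le_normalClosure hx⟩
    rw [show AlgEquiv.restrictNormal (ψ ^ k) K = AlgEquiv.restrictNormal φ K from hk'] at h1
    exact h2.symm.trans h1
  obtain ⟨k, hk⟩ := transfer τ σ hg
  obtain ⟨j, hj⟩ := transfer σ τ hg.symm
  have hnd : ¬ ℓ ∣ 15 := fun h => by have := Nat.le_of_dvd (by norm_num) h; omega
  have hτζ : τ ζ = ζ ^ ℓ := Gal.apply_rootOfUnity_of_isFrobeniusAt hτ hℓ hA hnd hζ.pow_eq_one
  have iter : ∀ (φ : Γ) (e : ℕ), φ ζ = ζ ^ e → ∀ n : ℕ, (φ ^ n) ζ = ζ ^ (e ^ n) := by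
    intro φ e he n
    induction n with
    | zero => simp
    | succ n ih => rw [pow_succ' φ, AlgEquiv.mul_apply, ih, map_pow, he, ← pow_mul, pow_succ']
  have hmod : ∀ x y : ℕ, ζ ^ x = ζ ^ y → x % 15 = y % 15 := fun x y h => by
    refine hζ.pow_inj (Nat.mod_lt _ (by norm_num)) (Nat.mod_lt _ (by norm_num)) ?_
    rw [← pow_mod_orderOf ζ x, ← pow_mod_orderOf ζ y, ← hζ.eq_orderOf] at h
    exact h
  have m1 : ℓ % 15 = 11 ^ k % 15 := hmod _ _ (by rw [← hτζ, hk ζ hζL, iter σ 11 hσζ])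
  have m2 : 11 % 15 = ℓ ^ j % 15 := hmod _ _ (by rw [← hσζ, hj ζ hζL, iter τ ℓ hτζ])
  have h11 : ∀ n : ℕ, 11 ^ n % 15 = 1 ∨ 11 ^ n % 15 = 11 := by
    intro n
    induction n with
    | zero => simp
    | succ n ih => rcases ih with h | h <;> rw [pow_succ, Nat.mul_mod, h] <;> simp
  have hℓ15 : ℓ % 15 = 11 := by
    rcases h11 k with h | h
    · rw [h] at m1
      rw [Nat.pow_mod, m1, one_pow] at m2
      norm_num at m2
    · omega
  -- the root is fixed by Frobenius, so it reduces into the prime field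
  have hτr : τ r = r := by
    rw [hk r hrL]
    clear m1 hk
    induction k with
    | zero => simp
    | succ k ih => rw [pow_succ, AlgEquiv.mul_apply, hσr, ih]
  have hrA : r ∈ A := Gal.mem_of_isIntegral A hrint
  have := Fact.mk hℓ
  set π := IsLocalRing.residue A
  have : CharP (IsLocalRing.ResidueField A) ℓ := Fermat.Agent.Gal.charP_residueField A hℓ hA
  set x : IsLocalRing.ResidueField A := π ⟨r, hrA⟩ with hx
  have hxℓ : x ^ ℓ = x := by
    have h := ((Gal.isFrobeniusAt_iff A τ ℓ).1 hτ).2 r hrA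
    rw [hτr] at h
    rw [hx, ← map_pow]
    refine (Gal.residue_eq_residue_iff A _ _).2 ?_
    have := neg_mem h
    simpa using this
  obtain ⟨z, hz⟩ : ∃ z : ℤ, (z : IsLocalRing.ResidueField A) = x := by
    have : ExpChar (IsLocalRing.ResidueField A) ℓ := .prime hℓ
    have hmem : x ∈ (⊥ : Subfield (IsLocalRing.ResidueField A)) :=
      (Subfield.mem_bot_iff_pow_eq_self (F := IsLocalRing.ResidueField A) (p := ℓ)).2 hxℓ
    rw [← ZMod.fieldRange_castHom_eq_bot ℓ] at hmem
    obtain ⟨w, hw⟩ := hmem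
    exact ⟨(w.val : ℤ), by rw [← hw, Int.cast_natCast]; exact ZMod.natCast_val w⟩
  have hPz : (ℓ : ℤ) ∣ jZeroPoly D b z := by
    rw [← CharP.intCast_eq_zero_iff (IsLocalRing.ResidueField A) ℓ,
      ← eq_intCast (Int.castRingHom (IsLocalRing.ResidueField A)), map_jZeroPoly,
      eq_intCast, eq_intCast, eq_intCast, hz, hx]
    have h0 : jZeroPoly (D : A) (b : A) (⟨r, hrA⟩ : A) = 0 := by
      refine A.subtype_injective ?_
      rw [map_jZeroPoly, map_intCast, map_intCast, _root_.map_zero]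
      exact hr
    have := congrArg π h0
    rwa [map_jZeroPoly, map_intCast, map_intCast, _root_.map_zero] at this
  have hla : ¬ (ℓ : ℤ) ∣ a := fun h => by
    have := Int.natAbs_le_of_dvd_ne_zero h ha
    simp only [Int.natAbs_natCast] at this
    omega
  obtain ⟨u, v, huv⟩ := ((Nat.prime_iff_prime_int.1 hℓ).coprime_iff_not_dvd).2 hla
  refine ⟨ℓ, hℓ, by omega, by omega, by omega, (z - b) * v, 1, fun h => ?_, ?_⟩
  · exact hℓ.one_lt.ne' (by exact_mod_cast Int.eq_one_of_dvd_one (by positivity) h.2)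
  · have hd : (ℓ : ℤ) ∣ a * ((z - b) * v) + b - z :=
      ⟨-(z - b) * u, by linear_combination (z - b) * huv⟩
    refine (((Nat.prime_iff_prime_int.1 hℓ).dvd_or_dvd (a := a ^ 3) ?_).resolve_left
      fun h => hla ((Nat.prime_iff_prime_int.1 hℓ).dvd_of_dvd_pow h))
    rw [jZeroPoly_eq, ← hD]
    have hdiff : (ℓ : ℤ) ∣ jZeroPoly D b (a * ((z - b) * v) + b) - jZeroPoly D b z := by
      set Y := a * ((z - b) * v) + b
      refine hd.trans ⟨(Y + z) * (Y ^ 2 + z ^ 2) + 6 * D * (Y + z) - 8 * b * D, ?_⟩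
      simp only [jZeroPoly]; ring
    simpa using hdiff.add hPz

end Fermat.Agent.SwitchGen
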