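import Mathlib
import Fermat.Agent.SwitchThree.TwoAdic
import Fermat.Agent.SwitchThree.Cusp

/-!
# Models supersingular at 2, and the Hesse pencil at such models

Integral models with invariants `(16 α, 8 β)`, `β ≡ 1 (mod 4)`; and the parameters at which the
pencil of a curve good at 2 reaches such invariants.

Main results: `exists_model_ss` and `pencil_ordinary`.
-/

set_option autoImplicit false

namespace Fermat.Agent.SwitchGen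

open Fermat.Agent.SwitchThree WeierstrassCurve

/-- Invariants `(16 α, 8 β)` with `β ≡ 1 (mod 4)` come from an integral model, given an admissible
residue `γ` of `b₂` modulo `27`. -/
theorem exists_model_ss {α β γ : ℤ} (hβ : 4 ∣ β - 1) (h3 : 3 ∣ γ ^ 2 - 16 * α)
    (h27 : 27 ∣ γ ^ 3 - 3 * (16 * α) * γ - 2 * (8 * β)) :
    ∃ W' : WeierstrassCurve ℤ, W'.c₄ = 16 * α ∧ W'.c₆ = 8 * β ∧ W'.a₁ = 0 := by
  obtain ⟨v, hv⟩ := hβ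
  obtain ⟨δ, hδ⟩ := h3
  obtain ⟨ε, hε⟩ := h27
  set a₂ : ℤ := 7 * γ with ha₂
  obtain ⟨c, hc⟩ : (27 : ℤ) ∣ 4 * a₂ - γ := ⟨γ, by rw [ha₂]; ring⟩
  clear_value a₂
  set B : ℤ := 4 * a₂ with hB
  obtain ⟨a₄, ha₄⟩ : (3 : ℤ) ∣ a₂ ^ 2 - α := by
    refine (IsCoprime.dvd_of_dvd_mul_left (by norm_num : IsCoprime (3 : ℤ) 16) ?_)
    exact ⟨9 * c * (B + γ) + δ, by rw [hB]; linear_combination (4 * a₂ + γ) * hc + hδ⟩
  obtain ⟨K, hK⟩ : ∃ K : ℤ, K = -B ^ 3 + 72 * B * a₄ - 216 := ⟨_, rfl⟩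
  have h32 : (32 : ℤ) ∣ K - 8 * β := by
    refine ⟨-2 * a₂ ^ 3 + 9 * a₂ * a₄ - 7 - v, ?_⟩
    rw [hK, hB, eq_add_of_sub_eq hv]; ring
  have h27' : (27 : ℤ) ∣ K - 8 * β := by
    refine (IsCoprime.dvd_of_dvd_mul_left (by norm_num : IsCoprime (27 : ℤ) 2) ?_)
    refine ⟨c * (B ^ 2 + B * γ + γ ^ 2) - 3 * (16 * α) * c + ε - 16, ?_⟩
    rw [hK]
    have e48 : B ^ 2 - 48 * a₄ = 16 * α := by rw [hB]; linear_combination 16 * ha₄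
    rw [← e48] at hε ⊢
    linear_combination (B ^ 2 + B * γ + γ ^ 2 - 3 * (B ^ 2 - 48 * a₄)) * hc + hε
  obtain ⟨a₆, ha₆⟩ : (864 : ℤ) ∣ K - 8 * β :=
    IsCoprime.mul_dvd (by norm_num : IsCoprime (32 : ℤ) 27) h32 h27'
  refine ⟨⟨0, a₂, 1, a₄, a₆⟩, ?_, ?_, rfl⟩
  · simp only [WeierstrassCurve.c₄, WeierstrassCurve.b₂, WeierstrassCurve.b₄]
    linear_combination 16 * ha₄
  · simp only [WeierstrassCurve.c₆, WeierstrassCurve.b₂, WeierstrassCurve.b₄,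
      WeierstrassCurve.b₆]
    rw [hK, hB] at ha₆
    linear_combination ha₆

/-- An admissible residue of `b₂` from congruent invariants, up to a scaling `t`. -/
theorem exists_residue_of_congr (W : WeierstrassCurve ℤ) {a b : ℤ}
    (ha : 243 ∣ a - W.c₄) (hb : 243 ∣ b - W.c₆) :
    ∃ γ : ℤ, 3 ∣ γ ^ 2 - a ∧ 27 ∣ γ ^ 3 - 3 * a * γ - 2 * b := by
  obtain ⟨p, hp⟩ := ha
  obtain ⟨q, hq⟩ := hb
  refine ⟨W.b₂, ⟨8 * W.b₄ - 81 * p, ?_⟩, ⟨16 * W.b₆ - 27 * W.b₂ * p - 18 * q, ?_⟩⟩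
  · rw [eq_add_of_sub_eq hp]; simp only [WeierstrassCurve.c₄]; ring
  · rw [eq_add_of_sub_eq hp, eq_add_of_sub_eq hq]
    simp only [WeierstrassCurve.c₄, WeierstrassCurve.c₆]; ring

/-- The invariants of a model with `a₁` even, good at 2. -/
theorem invariants_ss (W : WeierstrassCurve ℤ) (h2 : ¬ (2 : ℤ) ∣ W.Δ) (h1 : (2 : ℤ) ∣ W.a₁) :
    ∃ α β : ℤ, W.c₄ = 16 * α ∧ W.c₆ = 8 * β ∧ 4 ∣ β - 1 ∧ 2 ∣ α - W.b₈ := by
  obtain ⟨s, hs⟩ := h1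
  have h3 : Odd W.a₃ := by
    rcases Int.even_or_odd W.a₃ with ⟨t, ht⟩ | ho
    · exfalso
      have hb2 : W.b₂ = 4 * (s ^ 2 + W.a₂) := by simp only [WeierstrassCurve.b₂, hs]; ring
      have hb6 : W.b₆ = 4 * (t ^ 2 + W.a₆) := by simp only [WeierstrassCurve.b₆, ht]; ring
      refine h2 ⟨-8 * (s ^ 2 + W.a₂) ^ 2 * W.b₈ - 4 * W.b₄ ^ 3 - 216 * (t ^ 2 + W.a₆) ^ 2
        + 72 * (s ^ 2 + W.a₂) * W.b₄ * (t ^ 2 + W.a₆), ?_⟩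
      simp only [WeierstrassCurve.Δ, hb2, hb6]; ring
    · exact ho
  obtain ⟨t, ht⟩ := h3
  set A := s ^ 2 + W.a₂
  set B := s * (2 * t + 1) + W.a₄
  have hb2 : W.b₂ = 4 * A := by simp only [A, WeierstrassCurve.b₂, hs]; ring
  have hb4 : W.b₄ = 2 * B := by simp only [B, WeierstrassCurve.b₄, hs, ht]; ring
  have hb6 : W.b₆ = 4 * (t ^ 2 + t + W.a₆) + 1 := by
    simp only [WeierstrassCurve.b₆, ht]; ring
  refine ⟨A ^ 2 - 3 * B, -8 * A ^ 3 + 36 * A * B - 27 * W.b₆, ?_, ?_, ?_, ?_⟩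
  · simp only [WeierstrassCurve.c₄, hb2, hb4]; ring
  · simp only [WeierstrassCurve.c₆, hb2, hb4]; ring
  · exact ⟨-2 * A ^ 3 + 9 * A * B - 27 * (t ^ 2 + t + W.a₆) - 7, by rw [hb6]; ring⟩
  · have h8 : 4 * W.b₈ = W.b₂ * W.b₆ - W.b₄ ^ 2 := W.b_relation
    rw [hb2, hb4, hb6] at h8
    have e : W.b₈ = A * (4 * (t ^ 2 + t + W.a₆) + 1) - B ^ 2 := by linarith
    obtain ⟨u, hu⟩ := Int.even_mul_succ_self A
    obtain ⟨w, hw⟩ := Int.even_mul_succ_self B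
    exact ⟨u - A - 2 * B - A * (2 * (t ^ 2 + t + W.a₆)) + w, by
      rw [e]; linear_combination hu + hw⟩

/-- An ordinary model has the invariants of one with `a₁ = 1`, `a₃ = 0`. -/
theorem exists_ordinary_form (W : WeierstrassCurve ℤ) (h1 : ¬ (2 : ℤ) ∣ W.a₁) :
    ∃ W₀ : WeierstrassCurve ℤ, W₀.a₁ = 1 ∧ W₀.a₃ = 0 ∧ W₀.c₄ = W.c₄ ∧ W₀.c₆ = W.c₆ := by
  obtain ⟨e, he⟩ : ∃ e, W.a₁ = 2 * e + 1 := ⟨W.a₁ / 2, by omega⟩
  let C : VariableChange ℤ := ⟨1, -W.a₃, -e, e * W.a₃⟩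
  refine ⟨C • W, ?_, ?_, ?_, ?_⟩
  · simp [C, variableChange_a₁, he]
  · simp [C, variableChange_a₃, he]; ring
  · simp [C, variableChange_c₄]
  · simp [C, variableChange_c₆]

/-- **The pencil at an ordinary curve at 2**: at `(b₂, 1)` it is supersingular with good
reduction. -/
theorem pencil_ordinary (W : WeierstrassCurve ℤ) (h1 : W.a₁ = 1) (h3 : W.a₃ = 0)
    (h2 : ¬ (2 : ℤ) ∣ W.Δ) :
    ∃ α β d : ℤ, c4L W.b₂ 1 W.c₄ W.c₆ = 256 * (16 * α) ∧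
      c6L W.b₂ 1 W.c₄ W.c₆ = 4096 * (8 * β) ∧ dL W.b₂ 1 W.c₄ W.c₆ = 256 * d ∧ Odd d ∧
      Odd α ∧ 4 ∣ β - 1 := by
  have hb4 : W.b₄ = 2 * W.a₄ := by simp [WeierstrassCurve.b₄, h1, h3]
  have hb6 : W.b₆ = 4 * W.a₆ := by simp [WeierstrassCurve.b₆, h3]
  have hb2 : W.b₂ = 4 * W.a₂ + 1 := by simp only [WeierstrassCurve.b₂, h1]; ring
  have hb8 : W.b₈ = (4 * W.a₂ + 1) * W.a₆ - W.a₄ ^ 2 := by
    simp only [WeierstrassCurve.b₈, h1, h3]; ring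
  have hodd : Odd (W.a₆ - W.a₄ ^ 2) := by
    rw [Int.odd_iff]
    by_contra hcon
    obtain ⟨g, hg⟩ : (2 : ℤ) ∣ W.a₆ - W.a₄ ^ 2 := by omega
    refine h2 ⟨-(W.b₂ ^ 2 * (2 * W.a₂ * W.a₆ + g)) - 32 * W.a₄ ^ 3 - 216 * W.a₆ ^ 2
      + 36 * W.b₂ * W.a₄ * W.a₆, ?_⟩
    simp only [WeierstrassCurve.Δ, hb4, hb6, hb8]
    linear_combination (-W.b₂ ^ 2) * hg
  obtain ⟨k, hk⟩ := hodd
  set C' : ℤ := 27 * W.b₂ ^ 2 * W.a₆ - 972 * W.a₄ * W.a₆ - 27 * W.b₂ * W.a₄ ^ 2 with hC'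
  refine ⟨729 * W.a₆ ^ 2 - 81 * W.b₈ * W.a₄, 157464 * W.a₆ ^ 3 + 27 * W.b₈ * C', 27 * W.b₈,
    ?_, ?_, ?_, ?_, ?_, ?_⟩
  · have e := c4L_special W 0
    simp only [mul_zero, zero_add] at e
    rw [e, divTwoSq, divThree, hb4, hb6]; ring
  · have e := c6L_special W 0
    simp only [mul_zero, zero_add] at e
    rw [e, divTwoSq, divThree, sixCofactor, hC', hb4, hb6]; ring
  · have e := dL_special W 0
    simp only [mul_zero, zero_add] at e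
    rw [e, divThree]; ring
  · refine (by decide : Odd (27 : ℤ)).mul ⟨k + 2 * W.a₂ * W.a₆, ?_⟩
    rw [hb8]; linear_combination hk
  · obtain ⟨v, hv⟩ := Int.even_mul_succ_self W.a₆
    obtain ⟨w, hw⟩ := Int.even_mul_succ_self W.a₄
    refine ⟨729 * v - 729 * k - 365 - 729 * w + 324 * W.a₄
      - 81 * (k + 2 * W.a₂ * W.a₆) * W.a₄, ?_⟩
    rw [hb8]
    linear_combination 729 * hv + (-81 * W.a₄ - 729) * hk - 729 * hw
  · refine ⟨39366 * W.a₆ ^ 3 - 6561 * W.b₈ * W.a₄ * W.a₆ + 729 * (W.a₂ * W.b₈ ^ 2 + (k ^ 2 + k)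
      + 2 * W.a₂ * W.a₆ * (W.a₆ - W.a₄ ^ 2) + 4 * W.a₂ ^ 2 * W.a₆ ^ 2) + 182, ?_⟩
    rw [hC', hb8, hb2]
    linear_combination (729 * (W.a₆ - W.a₄ ^ 2 + 2 * k + 1)) * hk

/-- At an odd prime of multiplicative or additive type `(t, 0)` keeps the invariants. -/
theorem c4L_left (t a b : ℤ) :
    c4L t 0 a b = t ^ 4 * a ∧ c6L t 0 a b = t ^ 6 * b ∧ dL t 0 a b = t ^ 4 := by
  simp only [c4L, c6L, dL]; constructor <;> [skip; constructor] <;> ring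

end Fermat.Agent.SwitchGen
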