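import Mathlib
import Fermat.Agent.Root.FreyThree

/-!
# Point counts of reductions with `c₄` vanishing

If `c₄` vanishes modulo a prime `ℓ ≡ 2 (mod 3)` of good reduction the trace is zero
(`apOfModel_eq_zero`).
-/

set_option autoImplicit false

noncomputable section

open WeierstrassCurve

namespace Fermat.Agent.SwitchGen

section Field

variable {k : Type} [Field k] (E : WeierstrassCurve k)

/-- Completing the square, on solutions. -/
def completeSquareEquiv (h2 : (2 : k) ≠ 0) :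
    {q : k × k // E.toAffine.Equation q.1 q.2} ≃
      {q : k × k // q.2 ^ 2 = 4 * q.1 ^ 3 + E.b₂ * q.1 ^ 2 + 2 * E.b₄ * q.1 + E.b₆} where
  toFun q := ⟨(q.1.1, 2 * q.1.2 + E.a₁ * q.1.1 + E.a₃), by
    have h := (Affine.equation_iff _ _).1 q.2
    simp only [WeierstrassCurve.b₂, WeierstrassCurve.b₄, WeierstrassCurve.b₆]
    linear_combination 4 * h⟩
  invFun q := ⟨(q.1.1, (q.1.2 - E.a₁ * q.1.1 - E.a₃) / 2), by
    have h := q.2
    simp only [WeierstrassCurve.b₂, WeierstrassCurve.b₄, WeierstrassCurve.b₆] at h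
    rw [Affine.equation_iff]
    field_simp
    linear_combination h⟩
  left_inv q := by
    apply Subtype.ext; apply Prod.ext
    · rfl
    · change (2 * q.1.2 + E.a₁ * q.1.1 + E.a₃ - E.a₁ * q.1.1 - E.a₃) / 2 = q.1.2
      field_simp
      ring
  right_inv q := by
    apply Subtype.ext; apply Prod.ext
    · rfl
    · change 2 * ((q.1.2 - E.a₁ * q.1.1 - E.a₃) / 2) + E.a₁ * q.1.1 + E.a₃ = q.1.2
      field_simp
      ring

theorem card_point_eq [Finite k] (hΔ : E.Δ ≠ 0) (h2 : (2 : k) ≠ 0) :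
    Nat.card E.toAffine.Point =
      Nat.card {q : k × k // q.2 ^ 2 = 4 * q.1 ^ 3 + E.b₂ * q.1 ^ 2 + 2 * E.b₄ * q.1 + E.b₆}
        + 1 := by
  rw [Nat.card_congr (Root.pointEquivSolutions _), Finite.card_option,
    Nat.card_congr ((Equiv.subtypeEquivRight fun q : k × k =>
      (Affine.equation_iff_nonsingular_of_Δ_ne_zero hΔ).symm).trans (completeSquareEquiv E h2))]

end Field

/-- Cubing is bijective modulo a prime `≡ 2 (mod 3)`. -/
theorem cube_bijective (ℓ : ℕ) [Fact ℓ.Prime] (h3 : ℓ % 3 = 2) :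
    Function.Bijective fun x : ZMod ℓ => x ^ 3 := by
  refine Finite.injective_iff_bijective.1 fun x y (h : x ^ 3 = y ^ 3) => ?_
  obtain ⟨m, hm⟩ : ∃ m, ℓ = 3 * m + 2 := ⟨ℓ / 3, by omega⟩
  have key : ∀ z : ZMod ℓ, (z ^ 3) ^ (2 * m + 1) = z := by
    intro z
    rcases eq_or_ne z 0 with rfl | hz
    · simp
    have h1 := ZMod.pow_card_sub_one_eq_one hz
    calc (z ^ 3) ^ (2 * m + 1) = z ^ (ℓ - 1) * z ^ (ℓ - 1) * z := by
          rw [← pow_mul, ← pow_add, ← pow_succ]; congr 1; omega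
      _ = z := by rw [h1, one_mul, one_mul]
  rw [← key x, ← key y, h]

/-- Good reduction with `j = 0` at `ℓ ≡ 2 (mod 3)` is supersingular with trace zero. -/
theorem apOfModel_eq_zero (W : WeierstrassCurve ℤ) {ℓ : ℕ} (hℓ : ℓ.Prime) (h3 : ℓ % 3 = 2)
    (h2 : ℓ ≠ 2) (hgood : ¬ (ℓ : ℤ) ∣ W.Δ) (hc : (ℓ : ℤ) ∣ W.c₄) : W.apOfModel ℓ = 0 := by
  have := Fact.mk hℓ
  set E := W.reductionMod ℓ with hE
  have hΔ : E.Δ ≠ 0 := by
    rw [hE, reductionMod, map_Δ, eq_intCast, Ne, ZMod.intCast_zmod_eq_zero_iff_dvd]; exact hgood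
  have hc4 : E.b₂ ^ 2 - 24 * E.b₄ = 0 := by
    have : E.c₄ = 0 := by
      rw [hE, reductionMod, map_c₄, eq_intCast, ZMod.intCast_zmod_eq_zero_iff_dvd]; exact hc
    exact this
  have h2' : (2 : ZMod ℓ) ≠ 0 := by
    have : ((2 : ℕ) : ZMod ℓ) ≠ 0 := by
      rw [Ne, ZMod.natCast_eq_zero_iff, Nat.prime_dvd_prime_iff_eq hℓ Nat.prime_two]; exact h2
    exact_mod_cast this
  have h3' : (3 : ZMod ℓ) ≠ 0 := by
    have : ((3 : ℕ) : ZMod ℓ) ≠ 0 := by
      rw [Ne, ZMod.natCast_eq_zero_iff, Nat.prime_dvd_prime_iff_eq hℓ Nat.prime_three]; omega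
    exact_mod_cast this
  have h12 : (12 : ZMod ℓ) ≠ 0 := by
    rw [show (12 : ZMod ℓ) = 2 * 2 * 3 by norm_num]
    exact mul_ne_zero (mul_ne_zero h2' h2') h3'
  set f : ZMod ℓ → ZMod ℓ := fun Y => Y ^ 2 / 4 + E.b₂ ^ 3 / 1728 - E.b₆ / 4 with hf
  let cb := Equiv.ofBijective _ (cube_bijective ℓ h3)
  have hcube : ∀ x Y : ZMod ℓ,
      Y ^ 2 = 4 * x ^ 3 + E.b₂ * x ^ 2 + 2 * E.b₄ * x + E.b₆ ↔ (x + E.b₂ / 12) ^ 3 = f Y := by
    intro x Y
    have hb4 : 2 * E.b₄ = E.b₂ ^ 2 / 12 := by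
      field_simp
      linear_combination -hc4
    have h1728 : (1728 : ZMod ℓ) = 12 ^ 3 := by norm_num
    have h4 : (4 : ZMod ℓ) ≠ 0 := by
      rw [show (4 : ZMod ℓ) = 2 * 2 by norm_num]; exact mul_ne_zero h2' h2'
    rw [hf, hb4, h1728]
    simp only
    have hid : Y ^ 2 - (4 * x ^ 3 + E.b₂ * x ^ 2 + E.b₂ ^ 2 / 12 * x + E.b₆) =
        -4 * ((x + E.b₂ / 12) ^ 3 - (Y ^ 2 / 4 + E.b₂ ^ 3 / 12 ^ 3 - E.b₆ / 4)) := by
      field_simp
      ring
    have h4' : (-4 : ZMod ℓ) ≠ 0 := neg_ne_zero.2 h4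
    rw [← sub_eq_zero, hid, mul_eq_zero, or_iff_right h4', sub_eq_zero]
  have e : {q : ZMod ℓ × ZMod ℓ //
      q.2 ^ 2 = 4 * q.1 ^ 3 + E.b₂ * q.1 ^ 2 + 2 * E.b₄ * q.1 + E.b₆} ≃ ZMod ℓ :=
    { toFun := fun q => q.1.2
      invFun := fun Y => ⟨(cb.symm (f Y) - E.b₂ / 12, Y),
        (hcube _ _).2 (by rw [sub_add_cancel]; exact cb.apply_symm_apply (f Y))⟩
      left_inv := fun q => by
        apply Subtype.ext; apply Prod.ext
        · change cb.symm (f q.1.2) - E.b₂ / 12 = q.1.1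
          rw [← (hcube _ _).1 q.2, show (q.1.1 + E.b₂ / 12) ^ 3 = cb (q.1.1 + E.b₂ / 12) from rfl,
            Equiv.symm_apply_apply, add_sub_cancel_right]
        · rfl
      right_inv := fun Y => rfl }
  rw [apOfModel, ← hE, traceOfFrobenius, WeierstrassCurve.card, card_point_eq E hΔ h2',
    Nat.card_congr e, Nat.card_zmod]
  simp

end Fermat.Agent.SwitchGen
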