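import Mathlib
import Fermat.Agent.SwitchThree.Main
import Fermat.Agent.SwitchThree.Congr
import Fermat.Agent.SwitchThree.Param
import Fermat.Agent.SwitchGen.Model
import Fermat.Agent.SwitchGen.AuxPrime
import Fermat.Agent.SwitchGen.PointCount

/-!
# The switch at 3 from good reduction at 2 with nonzero trace

For a semistable `W`, good at 2 and with `a₁` or `b₈` odd, a semistable `W'` with isomorphic
3-torsion, good at 2 with invariants `(16 α, 8 β)`, `α` odd and `β ≡ 1 (mod 4)`, bad at 3 exactly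
if `W` is, and with an auxiliary good prime showing that its 5-torsion is irreducible
(`exists_switch_ss`).
-/

set_option autoImplicit false

noncomputable section

open WeierstrassCurve

namespace Fermat.Agent.SwitchGen

open Fermat.Agent.SwitchThree

/-- The parameter at 2. -/
theorem exists_two_param (W : WeierstrassCurve ℤ) (h2 : ¬ (2 : ℤ) ∣ W.Δ)
    (hno : ¬ ((2 : ℤ) ∣ W.a₁ ∧ (2 : ℤ) ∣ W.b₈)) :
    ∃ (e : ℕ) (l m α β d : ℤ), e ≤ 2 ∧ ¬ ((2 : ℤ) ∣ l ∧ (2 : ℤ) ∣ m) ∧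
      c4L l m W.c₄ W.c₆ = ((2 : ℤ) ^ e) ^ 4 * (16 * α) ∧
      c6L l m W.c₄ W.c₆ = ((2 : ℤ) ^ e) ^ 6 * (8 * β) ∧
      dL l m W.c₄ W.c₆ = ((2 : ℤ) ^ e) ^ 4 * d ∧ Odd d ∧ Odd α ∧ 4 ∣ β - 1 := by
  by_cases h1 : (2 : ℤ) ∣ W.a₁
  · obtain ⟨α, β, h4, h6, hβ, hα8⟩ := invariants_ss W h2 h1
    refine ⟨0, 1, 0, α, β, 1, by norm_num, fun h => by norm_num at h, ?_, ?_, ?_, odd_one, ?_, hβ⟩
    · rw [(c4L_left 1 _ _).1, h4]; ring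
    · rw [(c4L_left 1 _ _).2.1, h6]; ring
    · rw [(c4L_left 1 _ _).2.2]; ring
    · rw [Int.odd_iff]
      have : ¬ (2 : ℤ) ∣ W.b₈ := fun h => hno ⟨h1, h⟩
      omega
  · obtain ⟨W₀, ha1, ha3, e4, e6⟩ := exists_ordinary_form W h1
    have h20 : ¬ (2 : ℤ) ∣ W₀.Δ := by
      intro h
      refine h2 ?_
      have : (1728 : ℤ) * W₀.Δ = 1728 * W.Δ := by rw [W₀.c_relation, W.c_relation, e4, e6]
      rwa [← mul_left_cancel₀ (by norm_num : (1728 : ℤ) ≠ 0) this]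
    obtain ⟨α, β, d, k4, k6, kd, hd, hα, hβ⟩ := pencil_ordinary W₀ ha1 ha3 h20
    rw [e4, e6] at k4 k6 kd
    refine ⟨2, W₀.b₂, 1, α, β, d, le_rfl, fun h => by norm_num at h, ?_, ?_, ?_, hd, hα, hβ⟩
    · rw [k4]; norm_num
    · rw [k6]; norm_num
    · rw [kd]; norm_num

theorem dvd_of_congr_left {n : ℕ} {l m t a b : ℤ} (hl : (n : ℤ) ∣ l - t) (hm : (n : ℤ) ∣ m - 0) :
    (n : ℤ) ∣ c4L l m a b - t ^ 4 * a ∧ (n : ℤ) ∣ c6L l m a b - t ^ 6 * b ∧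
      (n : ℤ) ∣ dL l m a b - t ^ 4 := by
  obtain ⟨h1, h2, h3⟩ := congr_of_param hl hm a b
  rw [(c4L_left t a b).1] at h1
  rw [(c4L_left t a b).2.1] at h2
  rw [(c4L_left t a b).2.2] at h3
  exact ⟨h1, h2, h3⟩

/-- **The switch at 3 to a supersingular curve at 2, keeping the type at 3.** -/
theorem exists_switch_ss (W : WeierstrassCurve ℤ) (hΔ : W.Δ ≠ 0) (hW : W.IsSemistableModel)
    (h2 : ¬ (2 : ℤ) ∣ W.Δ) (hno : ¬ ((2 : ℤ) ∣ W.a₁ ∧ (2 : ℤ) ∣ W.b₈)) :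
    ∃ W' : WeierstrassCurve ℤ,
      Congr3 (W.map (Int.castRingHom ℚ)) (W'.map (Int.castRingHom ℚ)) ∧
      W'.Δ ≠ 0 ∧ W'.IsSemistableModel ∧ ¬ (2 : ℤ) ∣ W'.Δ ∧
      (∃ α β : ℤ, W'.c₄ = 16 * α ∧ Odd α ∧ W'.c₆ = 8 * β ∧ 4 ∣ β - 1) ∧
      ((3 : ℤ) ∣ W.Δ ↔ (3 : ℤ) ∣ W'.Δ) ∧
      ∃ ℓ : ℕ, ℓ.Prime ∧ W'.IsGoodPrimeFor ℓ ∧ ℓ ≠ 5 ∧
        ¬ (5 : ℤ) ∣ W'.apOfModel ℓ - ((ℓ : ℤ) + 1) := by
  classical
  have hab := cube_ne_sq W hΔ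
  obtain ⟨e, l₂, m₂, α₀, β₀, d₀, he, hlm₂, h4₂, h6₂, hd₂, hd₀, hα₀, hβ₀⟩ :=
    exists_two_param W h2 hno
  set t : ℤ := 2 ^ e with ht
  have ht0 : t ≠ 0 := pow_ne_zero _ two_ne_zero
  have htq : ∀ q : ℕ, q.Prime → q ≠ 2 → ¬ (q : ℤ) ∣ t := fun q hq hq2 h =>
    hq2 ((Nat.prime_dvd_prime_iff_eq hq Nat.prime_two).1
      (hq.dvd_of_dvd_pow (n := e) (by rw [ht] at h; exact_mod_cast h)))
  obtain ⟨ℓ, hℓ, hℓN, hℓ3, hℓ5, l₀, m₀, hlm₀, hc₀⟩ :=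
    exists_aux_prime hab (max 6 W.Δ.natAbs)
  set s := W.Δ.natAbs.primeFactors.erase 3 with hs
  have hsmem : ∀ q, q ∈ s ↔ q.Prime ∧ q ≠ 3 ∧ (q : ℤ) ∣ W.Δ := fun q => by
    rw [hs, Finset.mem_erase, Nat.mem_primeFactors_of_ne_zero (Int.natAbs_ne_zero.2 hΔ),
      Int.natCast_dvd]
    tauto
  set P : ℕ := ∏ q ∈ s, q with hP
  have hqP : ∀ q ∈ s, (q : ℤ) ∣ (P : ℤ) := fun q hq =>
    Int.natCast_dvd_natCast.2 (hP ▸ Finset.dvd_prod_of_mem _ hq)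
  have hPprime : ∀ p : ℕ, p.Prime → p ∣ P → p ∈ s := fun p hp h => by
    obtain ⟨q, hq, hdvd⟩ := (hp.prime.dvd_finsetProd_iff _).1 (hP ▸ h)
    rwa [(Nat.prime_dvd_prime_iff_eq hp ((hsmem q).1 hq).1).1 hdvd]
  have cop : ∀ {p : ℕ}, p.Prime → ∀ {n : ℕ}, (∀ q : ℕ, q.Prime → q ∣ n → q ≠ p) →
      IsCoprime (p : ℤ) (n : ℤ) := fun {p} hp {n} h => by
    rw [Int.isCoprime_iff_nat_coprime, Int.natAbs_natCast, Int.natAbs_natCast]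
    exact hp.coprime_iff_not_dvd.2 fun hd => h p hp hd rfl
  have c2 : IsCoprime ((2 : ℤ) ^ 30) (((3 ^ 8 * P * ℓ : ℕ)) : ℤ) := by
    refine IsCoprime.pow_left (cop Nat.prime_two fun q hq h => ?_)
    rcases hq.dvd_mul.1 h with h | h
    · rcases hq.dvd_mul.1 h with h | h
      · rw [(Nat.prime_dvd_prime_iff_eq hq Nat.prime_three).1 (hq.dvd_of_dvd_pow h)]; norm_num
      · rintro rfl
        exact h2 (by exact_mod_cast ((hsmem 2).1 (hPprime 2 hq h)).2.2)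
    · rw [(Nat.prime_dvd_prime_iff_eq hq hℓ).1 h]; omega
  have c3 : IsCoprime ((3 : ℤ) ^ 8) (((P * ℓ : ℕ)) : ℤ) := by
    refine IsCoprime.pow_left (cop Nat.prime_three fun q hq h => ?_)
    rcases hq.dvd_mul.1 h with h | h
    · exact ((hsmem q).1 (hPprime q hq h)).2.1
    · rw [(Nat.prime_dvd_prime_iff_eq hq hℓ).1 h]; omega
  have cℓ : IsCoprime (P : ℤ) (ℓ : ℤ) := by
    refine (cop hℓ fun q hq h => ?_).symm
    have := Int.natAbs_le_of_dvd_ne_zero ((hsmem q).1 (hPprime q hq h)).2.2 hΔ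
    simp only [Int.natAbs_natCast] at this
    omega
  obtain ⟨A₁, hA₁P, hA₁ℓ⟩ := exists_crt cℓ t l₀
  obtain ⟨B₁, hB₁P, hB₁ℓ⟩ := exists_crt cℓ 0 m₀
  obtain ⟨A₂, hA₂3, hA₂⟩ := exists_crt c3 t A₁
  obtain ⟨B₂, hB₂3, hB₂⟩ := exists_crt c3 (0 : ℤ) B₁
  obtain ⟨A₃, hA₃2, hA₃⟩ := exists_crt c2 l₂ A₂
  obtain ⟨B₃, hB₃2, hB₃⟩ := exists_crt c2 m₂ B₂
  set T : ℕ := 2 ^ 30 * 3 ^ 8 * P * ℓ with hT
  have hP0 : P ≠ 0 := hP ▸ Finset.prod_ne_zero_iff.2 fun q hq => ((hsmem q).1 hq).1.ne_zero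
  have hT0 : (0 : ℤ) < T := by
    have := hℓ.pos
    have := Nat.pos_of_ne_zero hP0
    rw [hT]; positivity
  set l : ℤ := A₃ + (T : ℤ) * (|A₃| + 1) with hl
  have hl0 : 0 < l := by
    have := neg_abs_le A₃; have := abs_nonneg A₃
    nlinarith
  have d2 : (2 : ℤ) ^ 30 ∣ (T : ℤ) := ⟨3 ^ 8 * P * ℓ, by rw [hT]; push_cast; ring⟩
  have dR : ((3 ^ 8 * P * ℓ : ℕ) : ℤ) ∣ (T : ℤ) := ⟨2 ^ 30, by rw [hT]; push_cast; ring⟩
  have d3 : (3 : ℤ) ^ 8 ∣ ((3 ^ 8 * P * ℓ : ℕ) : ℤ) := ⟨P * ℓ, by push_cast; ring⟩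
  have dR' : ((P * ℓ : ℕ) : ℤ) ∣ ((3 ^ 8 * P * ℓ : ℕ) : ℤ) := ⟨3 ^ 8, by push_cast; ring⟩
  have dP : (P : ℤ) ∣ ((P * ℓ : ℕ) : ℤ) := ⟨ℓ, by push_cast; ring⟩
  have dℓ : (ℓ : ℤ) ∣ ((P * ℓ : ℕ) : ℤ) := ⟨P, by push_cast; ring⟩
  have classes : ∀ x y : ℤ, (T : ℤ) ∣ x - A₃ → (T : ℤ) ∣ y - B₃ →
      ((2 : ℤ) ^ 30 ∣ x - l₂ ∧ (2 : ℤ) ^ 30 ∣ y - m₂) ∧
      ((3 : ℤ) ^ 8 ∣ x - t ∧ (3 : ℤ) ^ 8 ∣ y - (0 : ℤ)) ∧
      ((P : ℤ) ∣ x - t ∧ (P : ℤ) ∣ y - 0) ∧ ((ℓ : ℤ) ∣ x - l₀ ∧ (ℓ : ℤ) ∣ y - m₀) := by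
    intro x y hx hy
    have a1 := (d2.trans hx).add hA₃2
    have b1 := (d2.trans hy).add hB₃2
    rw [sub_add_sub_cancel] at a1 b1
    have a2 := (dR.trans hx).add hA₃
    have b2 := (dR.trans hy).add hB₃
    rw [sub_add_sub_cancel] at a2 b2
    have a3 := (d3.trans a2).add hA₂3
    have b3 := (d3.trans b2).add hB₂3
    rw [sub_add_sub_cancel] at a3 b3
    have a4 := (dR'.trans a2).add hA₂
    have b4 := (dR'.trans b2).add hB₂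
    rw [sub_add_sub_cancel] at a4 b4
    have a5 := (dP.trans a4).add hA₁P
    have b5 := (dP.trans b4).add hB₁P
    rw [sub_add_sub_cancel] at a5 b5
    have a6 := (dℓ.trans a4).add hA₁ℓ
    have b6 := (dℓ.trans b4).add hB₁ℓ
    rw [sub_add_sub_cancel] at a6 b6
    exact ⟨⟨a1, b1⟩, ⟨a3, b3⟩, ⟨a5, b5⟩, ⟨a6, b6⟩⟩
  have hlA : (T : ℤ) ∣ l - A₃ := ⟨|A₃| + 1, by rw [hl]; ring⟩
  obtain ⟨j, -, hco⟩ := exists_coprime_lift hl0.ne' B₃ (fun p hp hpT hd => by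
    obtain ⟨⟨u2, v2⟩, ⟨u3, v3⟩, ⟨uP, vP⟩, ⟨uℓ, vℓ⟩⟩ := classes l B₃ hlA (by simp)
    have hpn : p ∣ T := Int.natCast_dvd_natCast.1 hpT
    have back : ∀ {n x : ℤ}, (p : ℤ) ∣ n → n ∣ l - x → (p : ℤ) ∣ x := fun hn hx =>
      (dvd_sub_right hd.1).1 (hn.trans hx)
    have back' : ∀ {n y : ℤ}, (p : ℤ) ∣ n → n ∣ B₃ - y → (p : ℤ) ∣ y := fun hn hy =>
      (dvd_sub_right hd.2).1 (hn.trans hy)
    rw [hT] at hpn
    rcases hp.dvd_mul.1 hpn with hp' | hp'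
    · rcases hp.dvd_mul.1 hp' with hp' | hp'
      · rcases hp.dvd_mul.1 hp' with hp' | hp'
        · obtain rfl := (Nat.prime_dvd_prime_iff_eq hp Nat.prime_two).1 (hp.dvd_of_dvd_pow hp')
          have hdd : ((2 : ℕ) : ℤ) ∣ (2 : ℤ) ^ 30 := by norm_num
          exact hlm₂ ⟨by exact_mod_cast back hdd u2, by exact_mod_cast back' hdd v2⟩
        · obtain rfl := (Nat.prime_dvd_prime_iff_eq hp Nat.prime_three).1 (hp.dvd_of_dvd_pow hp')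
          have hdd : ((3 : ℕ) : ℤ) ∣ (3 : ℤ) ^ 8 := by norm_num
          exact htq 3 hp (by norm_num) (by simpa using back hdd u3)
      · have hpp : (p : ℤ) ∣ (P : ℤ) := Int.natCast_dvd_natCast.2 hp'
        refine htq p hp ?_ (back hpp uP)
        rintro rfl
        exact h2 (by exact_mod_cast ((hsmem 2).1 (hPprime 2 hp hp')).2.2)
    · obtain rfl := (Nat.prime_dvd_prime_iff_eq hp hℓ).1 hp'
      exact hlm₀ ⟨back dvd_rfl uℓ, back' dvd_rfl vℓ⟩) 0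
  set m : ℤ := B₃ + (T : ℤ) * j with hm
  obtain ⟨⟨l2, m2⟩, ⟨l3, m3⟩, ⟨lP, mP⟩, ⟨lℓ, mℓ⟩⟩ :=
    classes l m hlA ⟨j, by rw [hm]; ring⟩
  clear_value l m
  -- the invariants
  have e30 : ((2 ^ 30 : ℕ) : ℤ) = 2 ^ 30 := by norm_num
  obtain ⟨c4two, c6two, dtwo⟩ := congr_of_param (T := 2 ^ 30) (by rw [e30]; exact l2)
    (by rw [e30]; exact m2) W.c₄ W.c₆
  rw [e30] at c4two c6two dtwo
  rw [h4₂] at c4two
  rw [h6₂] at c6two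
  rw [hd₂] at dtwo
  obtain ⟨x₄, hx₄⟩ := c4two
  obtain ⟨x₆, hx₆⟩ := c6two
  obtain ⟨xd, hxd⟩ := dtwo
  have t4 : t ^ 4 * 2 ^ (8 - 4 * e) = 2 ^ 8 := by
    rw [ht, ← pow_mul, ← pow_add]; congr 1; omega
  have t6 : t ^ 6 * 2 ^ (12 - 6 * e) = 2 ^ 12 := by
    rw [ht, ← pow_mul, ← pow_add]; congr 1; omega
  set α : ℤ := α₀ + 2 ^ 18 * 2 ^ (8 - 4 * e) * x₄ with hα
  set β : ℤ := β₀ + 2 ^ 15 * 2 ^ (12 - 6 * e) * x₆ with hβ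
  set d : ℤ := d₀ + 2 ^ 22 * 2 ^ (8 - 4 * e) * xd with hd
  have f4 : c4L l m W.c₄ W.c₆ = t ^ 4 * (16 * α) := by
    rw [hα]; linear_combination hx₄ - 2 ^ 22 * x₄ * t4
  have f6 : c6L l m W.c₄ W.c₆ = t ^ 6 * (8 * β) := by
    rw [hβ]; linear_combination hx₆ - 2 ^ 18 * x₆ * t6
  have fd : dL l m W.c₄ W.c₆ = t ^ 4 * d := by
    rw [hd]; linear_combination hxd - 2 ^ 22 * xd * t4
  have hαo : Odd α := hα ▸ hα₀.add_even
    (((Int.even_pow.2 ⟨even_two, by norm_num⟩).mul_right _).mul_right _)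
  have hdo : Odd d := hd ▸ hd₀.add_even
    (((Int.even_pow.2 ⟨even_two, by norm_num⟩).mul_right _).mul_right _)
  have hβ4 : 4 ∣ β - 1 := by
    rw [hβ, add_sub_right_comm]
    exact hβ₀.add
      (((dvd_mul_right _ _).trans (dvd_of_eq (by norm_num : (4 : ℤ) * 2 ^ 13 = 2 ^ 15))).mul_right _
        |>.mul_right _)
  clear_value α β d
  have hcube : (16 * α) ^ 3 - (8 * β) ^ 2 = 1728 * (W.Δ * d ^ 3) := by
    refine mul_left_cancel₀ (pow_ne_zero 12 ht0) ?_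
    have := cube_sub_sq_pencil l m W.c₄ W.c₆
    rw [f4, f6, fd, cube_sub_sq_eq] at this
    linear_combination this
  have hcop : ∀ {q : ℕ}, q.Prime → q ≠ 2 → ∀ k : ℕ, IsCoprime (q : ℤ) (t ^ k) := fun hq hq2 k =>
    (((Nat.prime_iff_prime_int.1 hq).coprime_iff_not_dvd).2 (htq _ hq hq2)).pow_right
  -- at three
  have e38 : ((3 ^ 8 : ℕ) : ℤ) = 3 ^ 8 := by norm_num
  obtain ⟨c43, c63, d33⟩ := congr_of_param (T := 3 ^ 8) (by rw [e38]; exact l3)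
    (by rw [e38]; exact m3) W.c₄ W.c₆
  rw [e38] at c43 c63 d33
  have hcop3 : ∀ k : ℕ, IsCoprime ((3 : ℤ) ^ 8) (t ^ k) := fun k =>
    IsCoprime.pow_left (by exact_mod_cast hcop Nat.prime_three (by norm_num) k)
  obtain ⟨⟨γ, hγ3, hγ27⟩, htype, hss3⟩ :
      (∃ γ : ℤ, 3 ∣ γ ^ 2 - 16 * α ∧ 27 ∣ γ ^ 3 - 3 * (16 * α) * γ - 2 * (8 * β)) ∧
      ((3 : ℤ) ∣ W.Δ ↔ (3 : ℤ) ∣ W.Δ * d ^ 3) ∧
      ¬ ((3 : ℤ) ∣ W.Δ * d ^ 3 ∧ (3 : ℤ) ∣ 16 * α) := by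
    rw [(c4L_left t _ _).1, f4, ← mul_sub] at c43
    rw [(c4L_left t _ _).2.1, f6, ← mul_sub] at c63
    rw [(c4L_left t _ _).2.2, fd] at d33
    have a3 := (hcop3 4).dvd_of_dvd_mul_left c43
    have b3 := (hcop3 6).dvd_of_dvd_mul_left c63
    rw [show t ^ 4 * d - t ^ 4 = t ^ 4 * (d - 1) by ring] at d33
    have d3' := (hcop3 4).dvd_of_dvd_mul_left d33
    have h243 : (243 : ℤ) ∣ (3 : ℤ) ^ 8 := ⟨27, by norm_num⟩
    have h31 : (3 : ℤ) ∣ (3 : ℤ) ^ 8 := dvd_pow_self _ (by norm_num)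
    have hd3 : ¬ (3 : ℤ) ∣ d := fun h => by
      have h' := (dvd_sub_right h).1 (h31.trans d3')
      norm_num at h'
    refine ⟨exists_residue_of_congr W (h243.trans a3) (h243.trans b3),
      ⟨fun h => h.mul_right _, fun h => ?_⟩, fun ⟨hD, hA⟩ => ?_⟩
    · exact (Int.prime_three.dvd_or_dvd h).resolve_right fun h =>
        hd3 (Int.prime_three.dvd_of_dvd_pow h)
    · rcases Int.prime_three.dvd_or_dvd hD with h | h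
      · exact hW 3 Nat.prime_three (by exact_mod_cast h)
          (by exact_mod_cast (dvd_sub_right hA).1 (h31.trans a3))
      · exact hd3 (Int.prime_three.dvd_of_dvd_pow h)
  obtain ⟨W', hW4, hW6, -⟩ := exists_model_ss hβ4 hγ3 hγ27
  have hΔ' : W'.Δ = W.Δ * d ^ 3 := by
    refine mul_left_cancel₀ (by norm_num : (1728 : ℤ) ≠ 0) ?_
    rw [W'.c_relation, hW4, hW6, hcube]
  have hd0 : d ≠ 0 := fun h => by rw [h] at hdo; exact absurd hdo (by decide)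
  have hlm : IsCoprime l m := hm ▸ hco
  have hℓΔ : ¬ (ℓ : ℤ) ∣ W.Δ := fun h => by
    have := Int.natAbs_le_of_dvd_ne_zero h hΔ
    simp only [Int.natAbs_natCast] at this
    omega
  have hℓc : (ℓ : ℤ) ∣ c4L l m W.c₄ W.c₆ := by
    simpa using (congr_of_param lℓ mℓ W.c₄ W.c₆).1.add hc₀
  have hℓd : ¬ (ℓ : ℤ) ∣ W'.Δ := by
    rw [hΔ']
    intro h
    rcases (Nat.prime_iff_prime_int.1 hℓ).dvd_or_dvd h with h | h
    · exact hℓΔ h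
    · refine not_dvd_dL_c4L hℓ (by omega) (by omega) hℓΔ hlm ⟨?_, hℓc⟩
      rw [fd]; exact ((Nat.prime_iff_prime_int.1 hℓ).dvd_of_dvd_pow h).mul_left _
  have hℓW' : (ℓ : ℤ) ∣ W'.c₄ := by
    rw [hW4]
    exact (hcop hℓ (by omega) 4).dvd_of_dvd_mul_left (f4 ▸ hℓc)
  have h2Δ' : ¬ (2 : ℤ) ∣ W'.Δ := by
    rw [hΔ']
    intro h
    rcases Int.prime_two.dvd_or_dvd h with h | h
    · exact h2 h
    · exact Int.not_odd_iff_even.2 (even_iff_two_dvd.2 (Int.prime_two.dvd_of_dvd_pow h)) hdo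
  refine ⟨W', ?_, hΔ' ▸ mul_ne_zero hΔ (pow_ne_zero 3 hd0), ?_, h2Δ',
    ⟨α, β, hW4, hαo, hW6, hβ4⟩, by rw [hΔ']; exact htype,
    ℓ, hℓ, hℓd, by omega, ?_⟩
  · refine congr3_pencil (l := l) (m := m) (t := (t : ℚ)) (by exact_mod_cast ht0) hΔ
      (by rw [fd]; exact mul_ne_zero (pow_ne_zero _ ht0) hd0) ?_ ?_
    · rw [hW4, f4]; push_cast; ring
    · rw [hW6, f6]; push_cast; ring
  · intro q hq hqΔ hqc
    rcases eq_or_ne q 2 with rfl | hq2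
    · exact h2Δ' (by exact_mod_cast hqΔ)
    rcases eq_or_ne q 3 with rfl | hq3
    · exact hss3 ⟨by rw [← hΔ']; exact_mod_cast hqΔ, by rw [← hW4]; exact_mod_cast hqc⟩
    rw [hW4] at hqc
    rw [hΔ'] at hqΔ
    have hqi := Nat.prime_iff_prime_int.1 hq
    by_cases hqW : (q : ℤ) ∣ W.Δ
    · have hqP' := hqP q ((hsmem q).2 ⟨hq, hq3, hqW⟩)
      have h := hqP'.trans (dvd_of_congr_left lP mP (a := W.c₄) (b := W.c₆)).1
      rw [f4, ← mul_sub] at h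
      exact hW q hq hqW ((dvd_sub_right hqc).1 ((hcop hq hq2 4).dvd_of_dvd_mul_left h))
    · refine not_dvd_dL_c4L hq hq2 hq3 hqW hlm ⟨?_, ?_⟩
      · rw [fd]; exact (hqi.dvd_of_dvd_pow ((hqi.dvd_or_dvd hqΔ).resolve_left hqW)).mul_left _
      · rw [f4]; exact hqc.mul_left _
  · rw [apOfModel_eq_zero W' hℓ hℓ3 (by omega) hℓd hℓW']
    omega

end Fermat.Agent.SwitchGen
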