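import Mathlib
import Fermat.Agent.SwitchThree.Root
import Fermat.Agent.SwitchGen.ThreeSS
import Fermat.Agent.SwitchGen.FiveSS
import Fermat.Agent.SwitchGen.Five

/-!
# The switches for residual modularity mod 3 of every semistable curve

Either one switch at 3 reaches a curve of the genus theory, or the curve is good at 2 with `a₂ ≠ 0`
and a switch at 3 followed by one at 5 reaches a curve multiplicative at 2 with the hypotheses of
the lifting theorem at 3.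

Main results: `exists_genusCurve_congr3` and `exists_double_switch`.
-/

set_option autoImplicit false

noncomputable section

open WeierstrassCurve

namespace Fermat.Agent.SwitchGen

/-- Residual modularity from modularity of the same model. -/
theorem isResiduallyModularOfLevel_of_modular {W : WeierstrassCurve ℤ} {p N : ℕ} (hp : p.Prime)
    (h : W.IsModularModelOfLevel N) : W.IsResiduallyModularOfLevel p N := by
  obtain ⟨f, hf, hc⟩ := h
  obtain ⟨𝔪, hm, hpm⟩ := FLTPrelim.exists_maximalIdeal_natCast_prime_mem hp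
  exact ⟨f, 𝔪, hf, hm, hpm, fun ℓ hℓ hg hN _ =>
    ⟨((W.apOfModel ℓ : ℤ) : integralClosure ℤ ℂ), by rw [hc ℓ hℓ hg hN]; simp, by simp⟩⟩

/-- The conclusion wanted: residual modularity mod 3 at the conductor of some semistable curve. -/
theorem isResiduallyModularOfLevel_conductor {W W' : WeierstrassCurve ℤ}
    (h : SwitchThree.Congr3 (W.map (Int.castRingHom ℚ)) (W'.map (Int.castRingHom ℚ)))
    (hΔ : W'.Δ ≠ 0) (hmod : W'.IsModularModelOfLevel W'.conductorLevel) :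
    W.IsResiduallyModularOfLevel 3 W'.conductorLevel :=
  h.isResiduallyModularOfLevel
    (fun _ hℓ _ hN _ hd => hN ((W'.prime_dvd_conductorLevel_iff hΔ hℓ).2 hd))
    (isResiduallyModularOfLevel_of_modular Nat.prime_three hmod)

/-- One switch at 3 reaches a genus curve unless `W` is good at 2 with `a₂ ≠ 0`, keeping the type
at 3. -/
theorem exists_genusCurve_congr3 (W : WeierstrassCurve ℤ) (hΔ : W.Δ ≠ 0)
    (hW : W.IsSemistableModel) (h : (2 : ℤ) ∣ W.Δ ∨ ((2 : ℤ) ∣ W.a₁ ∧ (2 : ℤ) ∣ W.b₈)) :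
    ∃ W' : WeierstrassCurve ℤ, Root.GenusCurve W' ∧
      SwitchThree.Congr3 (W.map (Int.castRingHom ℚ)) (W'.map (Int.castRingHom ℚ)) ∧
      ((3 : ℤ) ∣ W.Δ ↔ (3 : ℤ) ∣ W'.Δ) := by
  obtain ⟨W₁, hne, hss, h21, hC, ht₁⟩ : ∃ W₁ : WeierstrassCurve ℤ, W₁.Δ ≠ 0 ∧
      W₁.IsSemistableModel ∧ (2 : ℤ) ∣ W₁.Δ ∧
      SwitchThree.Congr3 (W.map (Int.castRingHom ℚ)) (W₁.map (Int.castRingHom ℚ)) ∧
      ((3 : ℤ) ∣ W.Δ ↔ (3 : ℤ) ∣ W₁.Δ) := by
    by_cases h2 : (2 : ℤ) ∣ W.Δ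
    · exact ⟨W, hΔ, hW, h2, SwitchThree.congr3_of_variableChange 1 (one_smul _ _), Iff.rfl⟩
    · obtain ⟨h1, h8⟩ := h.resolve_left h2
      obtain ⟨x, hx, hx'⟩ := SwitchThree.exists_abscissa_of_good W h2 h1 h8
      obtain ⟨W₁, hC, hss, -, -, hv, ⟨h21, -⟩, hneg, -⟩ :=
        SwitchThree.exists_switch_two W hΔ hW hx hx' 1 odd_one 1 le_rfl
      have := Fact.mk Nat.prime_three
      have hv3 := hv 3 Nat.prime_three (by norm_num)
        (Dvd.intro ((1 : ℤ) * W.Δ) (by push_cast; ring))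
      have hiff : ∀ x : ℤ, x ≠ 0 → ((3 : ℤ) ∣ x ↔ 1 ≤ padicValInt 3 x) := fun x hx => by
        have := padicValInt_dvd_iff (p := 3) 1 x
        simpa [hx] using this
      exact ⟨W₁, hneg.ne, hss, h21, hC, by rw [hiff _ hΔ, hiff _ hneg.ne, hv3]⟩
  obtain ⟨W', hC', hss', ⟨h2', -⟩, -, -, hold, hodd, hnew, hneg, hirr,
    q, r, hq, hr, hqr, hq12, hr12, -, -, hqΔ, hrΔ⟩ :=
    SwitchThree.exists_switch_genus W₁ hne hss h21 1 (by simpa using isCoprime_one_left (R := ℤ))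
  exact ⟨W', ⟨hss', hneg, h2', hodd, ⟨q, r, hq, hr, hqr, hq12, hr12, hqΔ, hrΔ⟩, hirr⟩,
    hC.trans hC', ht₁.trans ⟨hold 3 Nat.prime_three, fun hd =>
      ((hnew 3 Nat.prime_three hd).resolve_right fun h => h.1 (by norm_num))⟩⟩

/-- The double switch for curves good at 2 with `a₂ ≠ 0`. -/
theorem exists_double_switch (W : WeierstrassCurve ℤ) (hΔ : W.Δ ≠ 0) (hW : W.IsSemistableModel)
    (h3 : W.ModRepIsIrreducible 3)
    (h : ¬ ((2 : ℤ) ∣ W.Δ ∨ ((2 : ℤ) ∣ W.a₁ ∧ (2 : ℤ) ∣ W.b₈))) :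
    ∃ W' W'' : WeierstrassCurve ℤ,
      SwitchThree.Congr3 (W.map (Int.castRingHom ℚ)) (W'.map (Int.castRingHom ℚ)) ∧
      Root.Semistable W' ∧ W'.ModRepIsIrreducible 3 ∧ W'.ModRepIsIrreducible 5 ∧
      Root.Semistable W'' ∧ (2 : ℤ) ∣ W''.Δ ∧ ¬ 3 ∣ padicValInt 2 W''.Δ ∧
      W''.ModRepIsIrreducible 3 ∧ Root.CongrMod 5 W' W'' ∧
      ((5 : ℤ) ∣ W'.Δ ↔ (5 : ℤ) ∣ W''.Δ) ∧ ((3 : ℤ) ∣ W.Δ ↔ (3 : ℤ) ∣ W'.Δ) := by
  obtain ⟨h2, hno⟩ := not_or.1 h
  obtain ⟨W', hC, hne', hss', h2', ⟨α, β, h4, hα, h6, hβ⟩, htype, ℓ, hℓ, hg, hℓ5, hat⟩ :=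
    exists_switch_ss W hΔ hW h2 hno
  obtain ⟨W'', hne, hss, h2'', hv, hirr, hCm, h5, -⟩ :=
    exists_switch_five_ss W' hne' hss' h2' h4 hα h6 hβ
  refine ⟨W', W'', hC, ⟨hne', hss'⟩, hC.modRepIsIrreducible h3,
    modRepIsIrreducible_of_trace W' hne' hss' (by norm_num) (by norm_num) hℓ hg hℓ5
      (by exact_mod_cast hat),
    ⟨hne, hss⟩, h2'', hv, hirr, hCm, h5, htype⟩

end Fermat.Agent.SwitchGen
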